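/-
GATE-E / E8.3b AUXR, the (remove) half, file 1 (helper10): **from a `p`-adic place of an order to a
maximal ideal of `ℤ̄ ⊆ ℂ`.**

`R0` integral over `ℤ`, `f : R0 →+* O'` into a local ring whose maximal ideal contains the prime `p`,
`ι : R0 →+* ℂ` injective.  Then there are `j : R0 →+* ℤ̄` with `(j x : ℂ) = ι x` and a maximal ideal
`Q ∋ p` of `ℤ̄` such that `f x ∈ 𝔪_{O'} → j x ∈ Q`  (lying over for the integral extension
`j(R0) ⊆ ℤ̄`).  Mathlib only.
-/
import Mathlib

set_option autoImplicit false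
set_option linter.style.haveILetI false

open IsLocalRing

namespace Fermat.Agent.GE8.AuxR.Place

/-- `ℤ̄ ⊆ ℂ`. -/
local notation "Zbar" => integralClosure ℤ ℂ

theorem exists_maximal_over {R0 : Type} [CommRing R0] [Algebra.IsIntegral ℤ R0]
    {O' : Type} [CommRing O'] [IsLocalRing O'] (f : R0 →+* O') (ι : R0 →+* ℂ)
    (hι : Function.Injective ι) {p : ℕ} (hp : p.Prime) (hpO : (p : O') ∈ maximalIdeal O') :
    ∃ (j : R0 →+* Zbar) (Q : Ideal Zbar), (∀ x, ((j x : Zbar) : ℂ) = ι x) ∧ Q.IsMaximal ∧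
      (p : Zbar) ∈ Q ∧ ∀ x : R0, f x ∈ maximalIdeal O' → j x ∈ Q := by
  classical
  -- the map `j`
  have hint : ∀ x : R0, ι x ∈ integralClosure ℤ ℂ := fun x =>
    (Algebra.IsIntegral.isIntegral (R := ℤ) x).map ι.toIntAlgHom
  let j : R0 →+* Zbar := ι.codRestrict (integralClosure ℤ ℂ) hint
  have hj : ∀ x, ((j x : Zbar) : ℂ) = ι x := fun x => rfl
  have hjinj : Function.Injective j := fun a b h => hι (by rw [← hj a, ← hj b, h])
  -- the prime `P` of `R0`
  let P : Ideal R0 := (maximalIdeal O').comap f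
  haveI hPprime : P.IsPrime := Ideal.comap_isPrime f (maximalIdeal O')
  have hpP : (p : R0) ∈ P := by
    show f (p : R0) ∈ maximalIdeal O'
    rw [map_natCast]
    exact hpO
  -- `P` is maximal
  haveI hPmax : P.IsMaximal := by
    apply Ideal.isMaximal_of_isIntegral_of_isMaximal_comap (R := ℤ) P
    have hprime : (P.comap (algebraMap ℤ R0)).IsPrime := Ideal.comap_isPrime _ _
    refine hprime.isMaximal ?_
    intro hbot
    have hmem : (p : ℤ) ∈ P.comap (algebraMap ℤ R0) := by
      rw [Ideal.mem_comap]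
      simpa using hpP
    rw [hbot, Ideal.mem_bot] at hmem
    exact hp.ne_zero (by exact_mod_cast hmem)
  -- lying over
  letI : Algebra R0 Zbar := j.toAlgebra
  haveI : Algebra.IsIntegral R0 Zbar := Algebra.IsIntegral.tower_top (R := ℤ)
  have hker : RingHom.ker (algebraMap R0 Zbar) ≤ P := by
    intro x hx
    have hx0 : x = 0 := hjinj (by rw [map_zero]; exact hx)
    rw [hx0]
    exact Ideal.zero_mem _
  obtain ⟨Q, hQmax, hQP⟩ := Ideal.exists_ideal_over_maximal_of_isIntegral (S := Zbar) P hker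
  refine ⟨j, Q, hj, hQmax, ?_, ?_⟩
  · have h1 : (p : R0) ∈ Q.comap (algebraMap R0 Zbar) := hQP ▸ hpP
    rw [Ideal.mem_comap] at h1
    have h2 : algebraMap R0 Zbar (p : R0) = (p : Zbar) := map_natCast j p
    rw [h2] at h1
    exact h1
  · intro x hx
    have h1 : x ∈ Q.comap (algebraMap R0 Zbar) := hQP ▸ (show x ∈ P from hx)
    exact h1

end Fermat.Agent.GE8.AuxR.Place
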