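/-
GATE-E / E8.3b AUXR, the (choose) half (helper90; GRAPH v1 of helper10, board 6777).

**Auxiliary primes.**  `W/ℤ` semistable, `Δ ≠ 0`, `p` odd, `W[p]` irreducible, `σ₀ ∈ G_ℚ` such that
`ρ̄(σ₀)` has no eigenvalue `±1`, i.e. `tr ρ̄(σ₀)² ≠ (1 + det ρ̄(σ₀))²` (and `det ρ̄(σ₀) = -1` when
`p = 3`).  Then for every finite set `B` of primes there is a prime `r ∉ B` with

  `r ≡ 11 (mod 12)`,  `r ≠ p`,  `W` good at `r`,  `a_r(W)² ≢ (r + 1)² (mod p)`.

Adding such an `r` to the level kills the elliptic points of orders `2` and `3` of `X₀(·)`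
(`r ≡ 3 (4)`, `r ≡ 2 (3)`), and no eigenform congruent to `ρ̄` is `r`-new (`tr² ≢ (1 + det)²`).

Proof.
1. DECOUPLING.  `τ₂ ∈ I_{A₂}` (`A₂ | 2`) with `τ₂ i = -i`; `τ₃ ∈ I_{A₃}` with `χ₃(τ₃) = -1`.
   By semistability inertia at `q ≠ p` acts unipotently on `W[p]`, so `ρ̄(τ^p) = 1`; `τ₂^p` still
   sends `i ↦ -i` (`p` odd) and `χ₃(τ₂^p) = 1`; likewise `τ₃^p` (`p ≠ 3`).  So `σ₀` can be corrected
   to `σ` with `ρ̄ σ = ρ̄ σ₀`, `σ i = -i`, `χ₃ σ = -1`  (for `p = 3`, `χ₃ = det ρ̄`).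
   No linear disjointness of `ℚ(W[p])` and `ℚ(ζ₁₂)` is needed.
2. CHEBOTAREV (`GP/TW/ChebExist`) for `ρ̄ × χ₃ × sgn_i` at `σ`.
3. At a Frobenius lift `τ` at `r`: `τ i ≡ i^r`, so `r ≡ 3 (4)`; `χ₃ τ = r`, so `r ≡ 2 (3)`;
   `tr ρ̄ τ = a_r`, `det ρ̄ τ = r` (`GB/A/A6/ECDet`), and `tr`, `det` are conjugation invariant.
-/
import Fermat.Agent.GB.A.A6.ECDet
import Fermat.Agent.GL.Local.TameZeta
import Fermat.Agent.GE8.Irr2.Transv

set_option autoImplicit false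
set_option linter.unusedSectionVars false
set_option linter.unusedVariables false

open scoped WeierstrassCurve.Affine
open Fermat.Agent.Common_helper32

namespace Fermat.Agent.GE8.AuxR.Choose

open WeierstrassCurve WeierstrassCurve.Affine.Point Fermat.Agent.GE.ECAssembly
open Fermat.Agent.GJ.CycChar Fermat.Agent.GB.A.A6.ECDet
open Fermat.Agent.GL.Local.InertiaField

/-! ### the quadratic character of `ℚ(i)` -/

section Sign

variable {s : Qb}

/-- a Galois conjugate of a square root of `-1` is `±` itself. -/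
theorem apply_eq_or_neg (hs : s ^ 2 = -1) (σ : GQ) : σ s = s ∨ σ s = -s := by
  have h : (σ s) ^ 2 = s ^ 2 := by rw [← map_pow, hs, map_neg, map_one]
  have h' : (σ s - s) * (σ s + s) = 0 := by linear_combination h
  rcases mul_eq_zero.mp h' with h1 | h1
  · left; linear_combination h1
  · right; linear_combination h1

theorem ne_zero_of_sq (hs : s ^ 2 = -1) : s ≠ 0 := by
  rintro rfl
  norm_num at hs

theorem pow_four_of_sq (hs : s ^ 2 = -1) : s ^ 4 = 1 := by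
  have : s ^ 4 = (s ^ 2) ^ 2 := by ring
  rw [this, hs]; norm_num

/-- the quadratic character `σ ↦ σ(i) / i` of `ℚ(i)`, with values in the monoid `ℚ̄`. -/
noncomputable def sgn (hs : s ^ 2 = -1) : GQ →* Qb where
  toFun σ := σ s / s
  map_one' := by
    show (1 : GQ) s / s = 1
    rw [AlgEquiv.one_apply, div_self (ne_zero_of_sq hs)]
  map_mul' σ τ := by
    show (σ * τ) s / s = σ s / s * (τ s / s)
    rw [AlgEquiv.mul_apply]
    have hs0 := ne_zero_of_sq hs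
    rcases apply_eq_or_neg hs τ with h | h
    · rw [h, div_self hs0, mul_one]
    · rw [h, map_neg, neg_div, neg_div, div_self hs0, mul_neg, mul_one]

theorem sgn_apply (hs : s ^ 2 = -1) (σ : GQ) : sgn hs σ = σ s / s := rfl

theorem sgn_eq_neg_one_iff (hs : s ^ 2 = -1) (σ : GQ) : sgn hs σ = -1 ↔ σ s = -s := by
  rw [sgn_apply, div_eq_iff (ne_zero_of_sq hs), neg_one_mul]

theorem sgn_eq_one_iff (hs : s ^ 2 = -1) (σ : GQ) : sgn hs σ = 1 ↔ σ s = s := by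
  rw [sgn_apply, div_eq_iff (ne_zero_of_sq hs), one_mul]

theorem sgn_eq_one_or (hs : s ^ 2 = -1) (σ : GQ) : sgn hs σ = 1 ∨ sgn hs σ = -1 := by
  rcases apply_eq_or_neg hs σ with h | h
  · left; exact (sgn_eq_one_iff hs σ).2 h
  · right; exact (sgn_eq_neg_one_iff hs σ).2 h

theorem sgn_finiteLevel (hs : s ^ 2 = -1) : GaloisFactorsThroughFiniteLevel (sgn hs) := by
  have hint : IsIntegral ℚ s := Algebra.IsIntegral.isIntegral s
  refine ⟨IntermediateField.adjoin ℚ {s}, IntermediateField.adjoin.finiteDimensional hint,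
    fun σ hσ => ?_⟩
  rw [sgn_eq_one_iff]
  exact hσ s (IntermediateField.mem_adjoin_simple_self ℚ s)

/-- the character is invariant under conjugation (commutative target). -/
theorem sgn_conj (hs : s ^ 2 = -1) (g σ : GQ) : sgn hs (g * σ * g⁻¹) = sgn hs σ := by
  rw [map_mul, map_mul, mul_comm (sgn hs g), mul_assoc, ← map_mul, mul_inv_cancel, map_one, mul_one]

theorem sgn_pow_odd (hs : s ^ 2 = -1) {σ : GQ} (h : sgn hs σ = -1) {n : ℕ} (hn : Odd n) :
    sgn hs (σ ^ n) = -1 := by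
  rw [map_pow, h, hn.neg_one_pow]

theorem exists_sq_eq_neg_one : ∃ s : Qb, s ^ 2 = -1 := by
  obtain ⟨s, hs⟩ := IsAlgClosed.exists_pow_nat_eq (-1 : Qb) (n := 2) (by norm_num)
  exact ⟨s, hs⟩

theorem valuation_eq_one_of_sq (A : ValuationSubring Qb) (hs : s ^ 2 = -1) :
    A.valuation s = 1 := by
  have h := congrArg A.valuation hs
  rw [map_pow, Valuation.map_neg, map_one] at h
  exact (pow_eq_one_iff_of_nonneg zero_le two_ne_zero).mp h

theorem mem_of_sq (A : ValuationSubring Qb) (hs : s ^ 2 = -1) : s ∈ A := by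
  rw [← ValuationSubring.valuation_le_one_iff, valuation_eq_one_of_sq A hs]

/-- **inertia at `2` does not fix `i`.** -/
theorem exists_inertia_two_neg (A : ValuationSubring Qb) (hA : A.LiesOverPrime 2)
    (hs : s ^ 2 = -1) : ∃ σ ∈ A.inertiaSubgroupIn ℚ, σ s = -s := by
  by_contra hcon
  push Not at hcon
  have hfix : ∀ σ ∈ A.inertiaSubgroupIn ℚ, σ (1 + s) = 1 + s := fun σ hσ => by
    rw [map_add, map_one, (apply_eq_or_neg hs σ).resolve_right (hcon σ hσ)]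
  have hs0 := ne_zero_of_sq hs
  have hx0 : (1 + s) ≠ 0 := by
    intro h
    have h1 : s = -1 := by linear_combination h
    rw [h1] at hs
    norm_num at hs
  have hA' : ((2 : ℕ) : Qb) ∈ A.nonunits := hA
  obtain ⟨n, hu, hu'⟩ := exists_zpow_unit_of_fixed A Nat.prime_two hA' (1 + s) hx0 hfix
  have h2 : ((2 : ℕ) : Qb) ≠ 0 := by norm_num
  have hv1 : A.valuation ((1 + s) / ((2 : ℕ) : Qb) ^ n) = 1 := by
    apply le_antisymm
    · exact (A.valuation_le_one_iff _).mpr hu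
    · have h1 := (A.valuation_le_one_iff _).mpr hu'
      rw [map_inv₀] at h1
      have hne : A.valuation ((1 + s) / ((2 : ℕ) : Qb) ^ n) ≠ 0 := by
        rw [Ne, map_eq_zero]
        exact div_ne_zero hx0 (zpow_ne_zero _ h2)
      exact (inv_le_one₀ (zero_lt_iff.mpr hne)).mp h1
  have hv2 : A.valuation ((2 : ℕ) : Qb) < 1 := A.mem_nonunits_iff.mp hA'
  have hsq : (1 + s) ^ 2 = ((2 : ℕ) : Qb) * s := by
    push_cast
    linear_combination hs
  have hkey : A.valuation ((2 : ℕ) : Qb) ^ (1 - 2 * n) = 1 := by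
    have e : (((2 : ℕ) : Qb)) ^ (1 - 2 * n) = ((1 + s) / ((2 : ℕ) : Qb) ^ n) ^ 2 * s⁻¹ := by
      rw [zpow_sub₀ h2, zpow_one, zpow_mul, div_pow, hsq]
      have : ((((2 : ℕ) : Qb)) ^ (2 : ℤ)) ^ n = ((((2 : ℕ) : Qb)) ^ n) ^ 2 := by
        rw [← zpow_natCast (((2 : ℕ) : Qb) ^ n) 2, ← zpow_mul, ← zpow_mul, mul_comm]
        rfl
      rw [this]
      field_simp
    rw [← map_zpow₀, e, map_mul, map_pow, hv1, one_pow, one_mul, map_inv₀,
      valuation_eq_one_of_sq A hs, inv_one]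
  have hk := (zpow_eq_one_iff_right₀ zero_le hv2.ne).mp hkey
  omega

end Sign

/-! ### inertia at `3` and the mod-`3` cyclotomic character -/

section Three

instance : Fact (Nat.Prime 3) := ⟨Nat.prime_three⟩

theorem units_zmod_three (u : (ZMod 3)ˣ) : u = 1 ∨ u = -1 := by
  revert u; decide

/-- **inertia at `3` maps onto `(ℤ/3)ˣ`.** -/
theorem exists_inertia_three (A : ValuationSubring Qb) (hA : A.LiesOverPrime 3) :
    ∃ σ ∈ A.inertiaSubgroupIn ℚ, cyc 3 σ = -1 := by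
  obtain ⟨ζ, hζ⟩ := exists_primitiveRoot 3
  have hA' : ((3 : ℕ) : Qb) ∈ A.nonunits := hA
  obtain ⟨σ, hσ, hσζ⟩ :=
    exists_mem_inertia_apply_zeta A Nat.prime_three hA' hζ (k := 2) (by norm_num)
  refine ⟨σ, hσ, ?_⟩
  have h := (cyc_eq_natCast_iff hζ σ 2).2 hσζ
  apply Units.ext
  rw [h]
  decide

theorem cyc_conj_eq (g σ : GQ) : cyc 3 (g * σ * g⁻¹) = cyc 3 σ := by
  rw [map_mul, map_mul, map_inv, mul_comm, ← mul_assoc, inv_mul_cancel, one_mul]

end Three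

/-! ### `p`-th powers of inertia elements act trivially on `W[p]` -/

section Inertia

variable (W : WeierstrassCurve ℤ) {p : ℕ} [hp : Fact p.Prime]

/-- `W` semistable, `τ ∈ I_q`, `q ≠ p`  ⟹  `ρ̄(τ ^ p) = 1`. -/
theorem rho_pow_eq_one_of_inertia (hss : W.IsSemistableModel) (hΔ : W.Δ ≠ 0) {q : ℕ}
    (hq : q.Prime) (hqp : q ≠ p) {A : ValuationSubring Qb} (hA : A.LiesOverPrime q) {τ : GQ}
    (hτ : τ ∈ A.inertiaSubgroupIn ℚ) : rho W p (τ ^ p) = 1 := by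
  have hsq : (rho W p τ - 1) ^ 2 = 0 :=
    Fermat.Agent.GE8.Irr2.Transv.rhoBar_sub_one_sq_of_inertia W hss hΔ hp.out hq hqp hA hτ
  have hcard : Nat.card (Tp W p) = p ^ 2 := Fermat.Agent.GE8.Irr2.Transv.card_tors W hΔ hp.out
  obtain ⟨hmf, hrk⟩ := Fermat.Agent.GE8.Irr2.Transv.finrank_eq_two_of_card hcard
  have hnt : Nontrivial (Tp W p) := by
    apply Module.nontrivial_of_finrank_pos (R := ZMod p)
    rw [hrk]; norm_num
  have hch : CharP (Module.End (ZMod p) (Tp W p)) p := Fermat.Agent.GE8.Irr2.Transv.charP_end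
  have h1 : (rho W p τ - 1) ^ p = 0 := pow_eq_zero_of_le hp.out.two_le hsq
  rw [sub_pow_char_of_commute p (Commute.one_right _), one_pow, sub_eq_zero] at h1
  rw [map_pow]
  exact h1

end Inertia

/-! ### conjugation invariance of trace and determinant -/

section Conj

variable {W : WeierstrassCurve ℤ} {p : ℕ} [Fact p.Prime]

theorem trace_rho_conj (g σ : GQ) :
    LinearMap.trace (ZMod p) (Tp W p) (rho W p (g * σ * g⁻¹)) =
      LinearMap.trace (ZMod p) (Tp W p) (rho W p σ) := by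
  rw [map_mul, LinearMap.trace_mul_comm, ← map_mul, ← mul_assoc, inv_mul_cancel, one_mul]

theorem det_rho_conj (g σ : GQ) :
    LinearMap.det (rho W p (g * σ * g⁻¹)) = LinearMap.det (rho W p σ) := by
  have h1 : LinearMap.det (rho W p g) * LinearMap.det (rho W p g⁻¹) = 1 := by
    rw [← map_mul, ← map_mul, mul_inv_cancel, map_one, map_one]
  rw [map_mul, map_mul, map_mul, map_mul, mul_comm (LinearMap.det (rho W p g)), mul_assoc, h1,
    mul_one]

end Conj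

/-! ### the theorem -/

section Main

variable (W : WeierstrassCurve ℤ) {p : ℕ} [hp : Fact p.Prime]

/-- **DECOUPLING.**  `σ₀` can be corrected, without changing `ρ̄(σ₀)`, to `σ` with `σ i = -i` and
`χ₃(σ) = -1`. -/
theorem exists_corrected (hss : W.IsSemistableModel) (hΔ : W.Δ ≠ 0) (hp2 : p ≠ 2)
    (hirr : W.ModRepIsIrreducible p) {s : Qb} (hs : s ^ 2 = -1) (σ₀ : GQ)
    (h3 : p = 3 → LinearMap.det (rho W p σ₀) = -1) :
    ∃ σ : GQ, rho W p σ = rho W p σ₀ ∧ sgn hs σ = -1 ∧ cyc 3 σ = -1 := by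
  have hpp : p.Prime := hp.out
  have hodd : Odd p := hpp.odd_of_ne_two hp2
  have hcard : Nat.card (Tp W p) = p ^ 2 := Fermat.Agent.GE8.Irr2.Transv.card_tors W hΔ hpp
  -- the element at `2`
  obtain ⟨A₂, hA₂⟩ := exists_liesOverPrime 2 Nat.prime_two
  obtain ⟨τ₂, hτ₂, hτ₂s⟩ := exists_inertia_two_neg A₂ hA₂ hs
  have ha₂ρ : rho W p (τ₂ ^ p) = 1 :=
    rho_pow_eq_one_of_inertia W hss hΔ Nat.prime_two (Ne.symm hp2) hA₂ hτ₂
  have ha₂s : sgn hs (τ₂ ^ p) = -1 := sgn_pow_odd hs ((sgn_eq_neg_one_iff hs τ₂).2 hτ₂s) hodd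
  have ha₂c : cyc 3 (τ₂ ^ p) = 1 := by
    rw [map_pow, cyc_inertia Nat.prime_two (by norm_num) hA₂ hτ₂, one_pow]
  -- first correction
  obtain ⟨σ₁, hσ₁ρ, hσ₁s, hσ₁c⟩ : ∃ σ₁ : GQ, rho W p σ₁ = rho W p σ₀ ∧ sgn hs σ₁ = -1 ∧
      cyc 3 σ₁ = cyc 3 σ₀ := by
    rcases sgn_eq_one_or hs σ₀ with h | h
    · refine ⟨σ₀ * τ₂ ^ p, ?_, ?_, ?_⟩
      · rw [map_mul, ha₂ρ, mul_one]
      · rw [map_mul, h, ha₂s, one_mul]
      · rw [map_mul, ha₂c, mul_one]
    · exact ⟨σ₀, rfl, h, rfl⟩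
  by_cases hp3 : p = 3
  · -- `p = 3`: `χ₃ = det ρ̄`
    refine ⟨σ₁, hσ₁ρ, hσ₁s, ?_⟩
    subst hp3
    have hdet := det_rho hΔ hcard hirr σ₀
    rw [h3 rfl] at hdet
    rw [hσ₁c]
    apply Units.ext
    rw [← hdet]
    rfl
  · -- `p ≠ 3`: the element at `3`
    obtain ⟨A₃, hA₃⟩ := exists_liesOverPrime 3 Nat.prime_three
    obtain ⟨τ₃, hτ₃, hτ₃c⟩ := exists_inertia_three A₃ hA₃
    have ha₃ρ : rho W p (τ₃ ^ p) = 1 :=
      rho_pow_eq_one_of_inertia W hss hΔ Nat.prime_three (Ne.symm hp3) hA₃ hτ₃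
    have ha₃c : cyc 3 (τ₃ ^ p) = -1 := by
      rw [map_pow, hτ₃c, hodd.neg_one_pow]
    have ha₃s : sgn hs (τ₃ ^ p) = 1 := by
      have hA₃' : ((3 : ℕ) : Qb) ∈ A₃.nonunits := hA₃
      have hmem := rootOfUnity_mem_inertiaField A₃ Nat.prime_three hA₃' (N := 4) (by norm_num)
        (pow_four_of_sq hs)
      rw [mem_inertiaField_iff] at hmem
      rw [map_pow, (sgn_eq_one_iff hs τ₃).2 (hmem τ₃ hτ₃), one_pow]
    rcases units_zmod_three (cyc 3 σ₁) with h | h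
    · refine ⟨σ₁ * τ₃ ^ p, ?_, ?_, ?_⟩
      · rw [map_mul, ha₃ρ, mul_one, hσ₁ρ]
      · rw [map_mul, ha₃s, mul_one, hσ₁s]
      · rw [map_mul, h, ha₃c, one_mul]
    · exact ⟨σ₁, hσ₁ρ, hσ₁s, h⟩

/-- a Frobenius lift at an odd prime `r` which sends `i ↦ -i` has `r ≡ 3 (mod 4)`. -/
theorem mod_four_of_frob {s : Qb} (hs : s ^ 2 = -1) {r : ℕ} (hr : r.Prime) (hr2 : r ≠ 2)
    {A : ValuationSubring Qb} (hA : A.LiesOverPrime r) {τ : GQ} (hτ : A.IsFrobeniusAt τ r)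
    (hτs : τ s = -s) : r % 4 = 3 := by
  have hodd : Odd r := hr.odd_of_ne_two hr2
  have h4 : r % 4 = 1 ∨ r % 4 = 3 := by
    obtain ⟨k, hk⟩ := hodd
    omega
  rcases h4 with h4 | h4
  · exfalso
    have hsA : s ∈ A := mem_of_sq A hs
    have h1 := apply_sub_pow_mem_nonunits hτ hsA
    have hpow : s ^ r = s := by
      have hr' : r = 4 * (r / 4) + 1 := by omega
      rw [hr', pow_add, pow_mul, pow_four_of_sq hs, one_pow, one_mul, pow_one]
    rw [hτs, hpow] at h1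
    -- `-2 s ∈ 𝔪`, so `2 ∈ 𝔪`
    have h2 : ((2 : ℕ) : Qb) ∈ A.nonunits := by
      rw [A.mem_nonunits_iff] at h1 ⊢
      have e : -s - s = -(((2 : ℕ) : Qb) * s) := by push_cast; ring
      rw [e, Valuation.map_neg, map_mul, valuation_eq_one_of_sq A hs, mul_one] at h1
      exact h1
    have := (Fermat.Agent.S05.natCast_mem_nonunits_iff hr hA 2).mp h2
    exact hr2 ((Nat.prime_dvd_prime_iff_eq hr Nat.prime_two).1 this)
  · exact h4

/-- **E8.3b (choose).**  Auxiliary primes `r ≡ 11 (mod 12)` at which no eigenform congruent to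
`ρ̄_{W,p}` can be new. -/
theorem exists_aux_prime (hss : W.IsSemistableModel) (hΔ : W.Δ ≠ 0) (hp2 : p ≠ 2)
    (hirr : W.ModRepIsIrreducible p) (σ₀ : GQ)
    (hσ₀ : LinearMap.trace (ZMod p) (Tp W p) (rho W p σ₀) ^ 2 ≠
      (1 + LinearMap.det (rho W p σ₀)) ^ 2)
    (h3 : p = 3 → LinearMap.det (rho W p σ₀) = -1) (B : Finset ℕ) :
    ∃ r : ℕ, r.Prime ∧ r ∉ B ∧ r % 12 = 11 ∧ r ≠ p ∧ W.IsGoodPrimeFor r ∧
      (((W.apOfModel r : ℤ) : ZMod p)) ^ 2 ≠ ((r : ZMod p) + 1) ^ 2 := by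
  classical
  have hpp : p.Prime := hp.out
  have hcard : Nat.card (Tp W p) = p ^ 2 := Fermat.Agent.GE8.Irr2.Transv.card_tors W hΔ hpp
  obtain ⟨s, hs⟩ := exists_sq_eq_neg_one
  obtain ⟨σ, hσρ, hσs, hσc⟩ := exists_corrected W hss hΔ hp2 hirr hs σ₀ h3
  -- Chebotarev
  have hR := Fermat.Agent.GP.TW.ChebExist.factorsThroughFiniteLevel_prod (rho W p)
    ((cyc 3).prod (sgn hs)) (finiteLevel_rho hcard)
    (Fermat.Agent.GP.TW.ChebExist.factorsThroughFiniteLevel_prod (cyc 3) (sgn hs)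
      (cyc_finiteLevel 3) (sgn_finiteLevel hs))
  obtain ⟨r, hr, hrB, hall⟩ := Fermat.Agent.GP.TW.ChebExist.exists_prime_forall_frob
    ((rho W p).prod ((cyc 3).prod (sgn hs))) hR σ
    ((B ∪ {2, 3}) ∪ insert p W.Δ.natAbs.primeFactors)
  rw [Finset.mem_union, not_or, Finset.mem_union, not_or] at hrB
  obtain ⟨⟨hrB, hr23⟩, hrpΔ⟩ := hrB
  have hr2 : r ≠ 2 := fun h => hr23 (by rw [h]; simp)
  have hr3 : r ≠ 3 := fun h => hr23 (by rw [h]; simp)
  obtain ⟨hrp, hgood⟩ := good_of_not_mem W hΔ hr hrpΔ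
  obtain ⟨A, τ, hA, hτ⟩ := exists_isFrobeniusAt r hr
  obtain ⟨g, hg⟩ := hall A τ hA hτ
  rw [MonoidHom.prod_apply, MonoidHom.prod_apply, Prod.mk.injEq, MonoidHom.prod_apply,
    MonoidHom.prod_apply, Prod.mk.injEq] at hg
  obtain ⟨hgρ, hgc, hgs⟩ := hg
  -- `r ≡ 3 (4)`
  have hτs : τ s = -s := by
    rw [← sgn_eq_neg_one_iff hs, hgs, sgn_conj, hσs]
  have hmod4 : r % 4 = 3 := mod_four_of_frob hs hr hr2 hA hτ hτs
  -- `r ≡ 2 (3)`
  have hmod3 : r % 3 = 2 := by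
    have h1 := cyc_frob (p := 3) hr hr3 hA hτ
    rw [hgc, cyc_conj_eq, hσc] at h1
    have h2 : ((r : ℕ) : ZMod 3) = ((2 : ℕ) : ZMod 3) := by
      rw [← h1]; decide
    have := (ZMod.natCast_eq_natCast_iff' r 2 3).1 h2
    omega
  refine ⟨r, hr, hrB, by omega, hrp, hgood, ?_⟩
  -- trace and determinant
  have hfin := finite_Tp hcard
  have hmf : Module.Finite (ZMod p) (Tp W p) := Module.Finite.of_finite
  let b : Module.Basis (Fin 2) (ZMod p) (Tp W p) :=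
    Module.finBasisOfFinrankEq (ZMod p) (Tp W p) (finrank_Tp hcard)
  have htr : LinearMap.trace (ZMod p) (Tp W p) (rho W p τ) = ((W.apOfModel r : ℤ) : ZMod p) := by
    rw [← trace_rhoM_frob hΔ hcard hirr b hr hrp hgood A hA τ hτ, rhoM_apply]
    exact LinearMap.trace_eq_matrix_trace (ZMod p) b _
  have hdet : LinearMap.det (rho W p τ) = (r : ZMod p) := by
    rw [det_rho hΔ hcard hirr τ, cyc_frob hr hrp hA hτ]
  rw [← htr, ← hdet, hgρ, trace_rho_conj, det_rho_conj, hσρ, add_comm]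
  exact hσ₀

end Main

end Fermat.Agent.GE8.AuxR.Choose
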