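/-
GATE-E / E8.3b AUXR, supply of `σ₀` for `Choose.exists_aux_prime` — abstract part (helper90).

`ρ : G →* GL₂(𝔽_p)` (`p ≠ 2, 3`), irreducible over `𝔽_p`, whose determinant takes values in a
cyclic group generated by ONE value `det ρ(g₀)`.  Then some `ρ(g)` has NO eigenvalue `±1`:

  `exists_trace_sq_ne : ∃ g, tr ρ(g) ^ 2 ≠ (1 + det ρ(g)) ^ 2`.

Proof.  Otherwise every `ρ(g)` has an eigenvalue `ε = ±1` (Cayley–Hamilton:
`(f - ε)(f - ε det f) = 0`), and every `ρ(g)` of determinant `1` is `± unipotent`.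
* Case A: every `ρ(g)` of determinant `1` is `±1`.  Then every `ρ(g)` is `± ρ(g₀)^k`, and an
  eigenvector of `ρ(g₀)` spans a stable line.
* Case B: some `ρ(g₁) ≠ ±1` has determinant `1`; `t = ρ(g₁)²` is a transvection `1 + n`.  By
  irreducibility a conjugate `t' = 1 + n'` has a different axis, `c = tr(n n') ≠ 0`, and
  `tr (t t'^k) = 2 + k c`.  With `k c = 2`: `(2 + 2)² = (1 + 1)²`, i.e. `12 = 0` in `𝔽_p`.
Mathlib + `GB/Def/TWHyp` (two plane lemmas) only.
-/
import Mathlib
import Fermat.Agent.GB.Def.TWHyp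

set_option autoImplicit false
set_option linter.unusedSectionVars false
set_option linter.unusedVariables false

namespace Fermat.Agent.GE8.AuxR.SigmaAbs

open Module Polynomial

/-! ### endomorphisms of a plane -/

section Plane

variable {K : Type*} [Field K] {V : Type*} [AddCommGroup V] [Module K V]

/-- the characteristic polynomial in rank two. -/
theorem charpoly_two [Module.Finite K V] (hV : finrank K V = 2) (f : Module.End K V) :
    f.charpoly = X ^ 2 - C (LinearMap.trace K V f) * X + C (LinearMap.det f) := by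
  classical
  have hcard : Fintype.card (Free.ChooseBasisIndex K V) = 2 := by
    rw [← finrank_eq_card_chooseBasisIndex, hV]
  let b : Basis (Fin 2) K V :=
    (Free.chooseBasis K V).reindex (Fintype.equivFinOfCardEq hcard)
  rw [← LinearMap.charpoly_toMatrix f b, Matrix.charpoly_fin_two,
    ← LinearMap.trace_eq_matrix_trace K b f, LinearMap.det_toMatrix b f]

/-- **Cayley–Hamilton in a plane**, pointwise. -/
theorem apply_apply_eq (hV : finrank K V = 2) (f : Module.End K V) (v : V) :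
    f (f v) = LinearMap.trace K V f • f v - LinearMap.det f • v := by
  have : Module.Finite K V := Module.finite_of_finrank_eq_succ hV
  have h := LinearMap.aeval_self_charpoly f
  rw [charpoly_two hV f, map_add, map_sub, map_mul, map_pow, aeval_X, aeval_C, aeval_C] at h
  have h2 := LinearMap.congr_fun h v
  rw [LinearMap.add_apply, LinearMap.sub_apply, Module.End.mul_apply, pow_two,
    Module.End.mul_apply, Module.algebraMap_end_apply, Module.algebraMap_end_apply,
    LinearMap.zero_apply] at h2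
  rw [← sub_eq_zero, ← h2]
  abel

theorem trace_eq_zero_of_sq (hV : finrank K V = 2) {n : Module.End K V} (hn : n * n = 0) :
    LinearMap.trace K V n = 0 := by
  have : Module.Finite K V := Module.finite_of_finrank_eq_succ hV
  have hnil : IsNilpotent n := ⟨2, by rw [pow_two]; exact hn⟩
  exact (LinearMap.isNilpotent_trace_of_isNilpotent hnil).eq_zero

theorem det_eq_zero_of_sq (hV : finrank K V = 2) {n : Module.End K V} (hn : n * n = 0) :
    LinearMap.det n = 0 := by
  have : Module.Finite K V := Module.finite_of_finrank_eq_succ hV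
  have h : LinearMap.det n * LinearMap.det n = 0 := by
    rw [← map_mul, hn, LinearMap.det_zero, hV]
    norm_num
  exact mul_self_eq_zero.1 h

/-- a submodule of rank one is generated by each of its nonzero elements. -/
theorem exists_smul_eq_of_finrank_one {U : Submodule K V} (hU : finrank K U = 1) {u : V}
    (huU : u ∈ U) (hu0 : u ≠ 0) {w : V} (hw : w ∈ U) : ∃ c : K, c • u = w := by
  have hne : (⟨u, huU⟩ : U) ≠ 0 := fun h => hu0 (congrArg Subtype.val h)
  obtain ⟨c, hc⟩ := (finrank_eq_one_iff_of_nonzero' (⟨u, huU⟩ : U) hne).1 hU ⟨w, hw⟩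
  exact ⟨c, congrArg Subtype.val hc⟩

/-- **two square-zero endomorphisms with different kernels**: `tr (n n') ≠ 0`. -/
theorem trace_mul_ne_zero (hV : finrank K V = 2) {n n' : Module.End K V} (hn : n * n = 0)
    (hn' : n' * n' = 0) (hn'0 : n' ≠ 0) {x' : V} (hx' : n' x' = 0) (hnx' : n x' ≠ 0) :
    LinearMap.trace K V (n * n') ≠ 0 := by
  obtain ⟨-, hk'⟩ := Fermat.Agent.GB.Def.TWHyp.range_eq_ker_and_finrank hV n' hn'0 hn'
  have hx'0 : x' ≠ 0 := by
    rintro rfl
    exact hnx' (map_zero n)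
  have hx'ker : x' ∈ LinearMap.ker n' := LinearMap.mem_ker.2 hx'
  obtain ⟨v, hv⟩ : ∃ v : V, v = n x' := ⟨_, rfl⟩
  have hv0 : v ≠ 0 := by rw [hv]; exact hnx'
  have hnv : n v = 0 := by
    have := LinearMap.congr_fun hn x'
    rw [Module.End.mul_apply, LinearMap.zero_apply] at this
    rw [hv]
    exact this
  -- `n' v ≠ 0`
  have hn'v : n' v ≠ 0 := by
    intro h0
    obtain ⟨a, ha⟩ := exists_smul_eq_of_finrank_one hk' hx'ker hx'0 (LinearMap.mem_ker.2 h0)
    have h1 : n v = a • v := by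
      calc n v = n (a • x') := by rw [ha]
        _ = a • n x' := map_smul n a x'
        _ = a • v := by rw [hv]
    rw [hnv] at h1
    rcases smul_eq_zero.1 h1.symm with h2 | h2
    · rw [h2, zero_smul] at ha
      exact hv0 ha.symm
    · exact hv0 h2
  -- `n' v = b x'`, `b ≠ 0`
  have hn'n'v : n' (n' v) = 0 := by
    have := LinearMap.congr_fun hn' v
    rwa [Module.End.mul_apply, LinearMap.zero_apply] at this
  obtain ⟨b, hb⟩ := exists_smul_eq_of_finrank_one hk' hx'ker hx'0 (LinearMap.mem_ker.2 hn'n'v)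
  have hb0 : b ≠ 0 := by
    rintro rfl
    rw [zero_smul] at hb
    exact hn'v hb.symm
  -- `(n n') v = b v`
  have hfv : (n * n') v = b • v := by
    rw [Module.End.mul_apply, ← hb, map_smul, hv]
  -- Cayley–Hamilton for `f = n n'`, `det f = 0`
  have hdet : LinearMap.det (n * n') = 0 := by
    rw [map_mul, det_eq_zero_of_sq hV hn, zero_mul]
  have hCH := apply_apply_eq hV (n * n') v
  rw [hdet, zero_smul, sub_zero, hfv, map_smul, hfv, smul_smul, smul_smul] at hCH
  intro htr
  rw [htr, zero_mul, zero_smul] at hCH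
  rcases smul_eq_zero.1 hCH with h | h
  · exact hb0 (mul_self_eq_zero.1 h)
  · exact hv0 h

theorem one_add_pow_of_sq {n' : Module.End K V} (hn' : n' * n' = 0) (k : ℕ) :
    (1 + n') ^ k = 1 + (k : K) • n' := by
  induction k with
  | zero => simp
  | succ k ih =>
    rw [pow_succ, ih, add_mul, mul_add, mul_add, one_mul, mul_one, one_mul, smul_mul_assoc, hn',
      smul_zero, add_zero, Nat.cast_succ, add_smul, one_smul]
    abel

/-- the trace of `(1 + n)(1 + n')^k`. -/
theorem trace_family (hV : finrank K V = 2) {n n' : Module.End K V} (hn : n * n = 0)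
    (hn' : n' * n' = 0) (k : ℕ) :
    LinearMap.trace K V ((1 + n) * (1 + n') ^ k) = 2 + (k : K) * LinearMap.trace K V (n * n') := by
  have : Module.Finite K V := Module.finite_of_finrank_eq_succ hV
  rw [one_add_pow_of_sq hn' k, add_mul, mul_add, mul_add, one_mul, mul_one, one_mul,
    mul_smul_comm, map_add, map_add, map_add, map_smul, map_smul, LinearMap.trace_one, hV,
    trace_eq_zero_of_sq hV hn, trace_eq_zero_of_sq hV hn', smul_zero, smul_eq_mul]
  push_cast
  ring

end Plane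

/-! ### Case A -/

section CaseA

variable {K : Type*} [Field K] {V : Type*} [AddCommGroup V] [Module K V] {G : Type*} [Group G]
  (ρ : G →* Module.End K V)

/-- the stabiliser of the line `K v`. -/
def lineStab {v : V} (hv : v ≠ 0) : Subgroup G where
  carrier := {g | ∃ μ : K, ρ g v = μ • v}
  one_mem' := ⟨1, by rw [map_one, Module.End.one_apply, one_smul]⟩
  mul_mem' := by
    rintro a b ⟨μ, hμ⟩ ⟨ν, hν⟩
    refine ⟨ν * μ, ?_⟩
    rw [map_mul, Module.End.mul_apply, hν, map_smul, hμ, smul_smul]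
  inv_mem' := by
    rintro a ⟨μ, hμ⟩
    have h1 : ρ a⁻¹ (ρ a v) = v := by
      rw [← Module.End.mul_apply, ← map_mul, inv_mul_cancel, map_one, Module.End.one_apply]
    rw [hμ, map_smul] at h1
    have hμ0 : μ ≠ 0 := by
      rintro rfl
      rw [zero_smul] at h1
      exact hv h1.symm
    refine ⟨μ⁻¹, ?_⟩
    have h2 : ρ a⁻¹ v = μ⁻¹ • (μ • ρ a⁻¹ v) := by rw [smul_smul, inv_mul_cancel₀ hμ0, one_smul]
    rw [h2, h1]

theorem mem_lineStab {v : V} (hv : v ≠ 0) (g : G) :
    g ∈ lineStab ρ hv ↔ ∃ μ : K, ρ g v = μ • v := Iff.rfl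

/-- **Case A.** -/
theorem false_of_caseA (hV : finrank K V = 2)
    (hirr : ∀ U : Submodule K V, (∀ g, ∀ x ∈ U, ρ g x ∈ U) → U = ⊥ ∨ U = ⊤)
    (δ : G →* Kˣ) (hδ : ∀ g, LinearMap.det (ρ g) = (δ g : K)) (g₀ : G)
    (hgen : ∀ g, δ g ∈ Subgroup.zpowers (δ g₀))
    (hall₀ : LinearMap.trace K V (ρ g₀) ^ 2 = (1 + LinearMap.det (ρ g₀)) ^ 2)
    (hA : ∀ g, LinearMap.det (ρ g) = 1 → ρ g = 1 ∨ ρ g = -1) : False := by
  have hfd : Module.Finite K V := Module.finite_of_finrank_eq_succ hV
  have hnt : Nontrivial V := Module.nontrivial_of_finrank_pos (R := K) (by rw [hV]; norm_num)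
  set f := ρ g₀ with hf
  set T := LinearMap.trace K V f with hT
  set d := LinearMap.det f with hd
  -- `T = ε (1 + d)`, `ε = ±1`
  obtain ⟨ε, hε, hTε⟩ : ∃ ε : K, ε * ε = 1 ∧ T = ε * (1 + d) := by
    have h : (T - (1 + d)) * (T + (1 + d)) = 0 := by linear_combination hall₀
    rcases mul_eq_zero.1 h with h | h
    · exact ⟨1, by ring, by linear_combination h⟩
    · exact ⟨-1, by ring, by linear_combination h⟩
  -- an eigenvector of `f`
  obtain ⟨v, hv0, lam, hv⟩ : ∃ v : V, v ≠ 0 ∧ ∃ lam : K, f v = lam • v := by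
    by_cases hB : ∀ w : V, f w = (ε * d) • w
    · obtain ⟨v, hv0⟩ := exists_ne (0 : V)
      exact ⟨v, hv0, ε * d, hB v⟩
    · push Not at hB
      obtain ⟨w, hw⟩ := hB
      refine ⟨f w - (ε * d) • w, sub_ne_zero.2 hw, ε, ?_⟩
      have hCH := apply_apply_eq hV f w
      rw [map_sub, map_smul, hCH, ← hT, ← hd, hTε]
      have hε' : ε * (ε * d) = d := by rw [← mul_assoc, hε, one_mul]
      rw [smul_sub, smul_smul, hε']
      module
  -- every `g` stabilises the line
  have hstab : ∀ g : G, g ∈ lineStab ρ hv0 := by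
    intro g
    obtain ⟨k, hk⟩ := Subgroup.mem_zpowers_iff.1 (hgen g)
    have hg₀ : g₀ ∈ lineStab ρ hv0 := ⟨lam, hv⟩
    have hh : g * g₀ ^ (-k) ∈ lineStab ρ hv0 := by
      have hdet1 : LinearMap.det (ρ (g * g₀ ^ (-k))) = 1 := by
        rw [hδ, map_mul, map_zpow, ← hk, zpow_neg, mul_inv_cancel, Units.val_one]
      rcases hA _ hdet1 with h | h
      · exact ⟨1, by rw [h, Module.End.one_apply, one_smul]⟩
      · exact ⟨-1, by rw [h, LinearMap.neg_apply, Module.End.one_apply, neg_smul, one_smul]⟩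
    have := (lineStab ρ hv0).mul_mem hh ((lineStab ρ hv0).zpow_mem hg₀ k)
    rwa [mul_assoc, ← zpow_add, neg_add_cancel, zpow_zero, mul_one] at this
  -- the line is stable
  rcases hirr (Submodule.span K {v}) (by
    intro g x hx
    obtain ⟨a, rfl⟩ := Submodule.mem_span_singleton.1 hx
    obtain ⟨μ, hμ⟩ := hstab g
    rw [map_smul, hμ, smul_smul]
    exact Submodule.smul_mem _ _ (Submodule.mem_span_singleton_self v)) with h | h
  · have : v ∈ Submodule.span K {v} := Submodule.mem_span_singleton_self v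
    rw [h, Submodule.mem_bot] at this
    exact hv0 this
  · have h1 : finrank K (Submodule.span K {v}) = 1 := finrank_span_singleton hv0
    rw [h, finrank_top, hV] at h1
    norm_num at h1

end CaseA

/-! ### the theorem -/

section Main

variable {p : ℕ} [hp : Fact p.Prime] {V : Type*} [AddCommGroup V] [Module (ZMod p) V]
  {G : Type*} [Group G] (ρ : G →* Module.End (ZMod p) V)

/-- **Case B.** -/
theorem false_of_caseB (hV : finrank (ZMod p) V = 2) (hp2 : p ≠ 2) (hp3 : p ≠ 3)
    (hirr : ∀ U : Submodule (ZMod p) V, (∀ g, ∀ x ∈ U, ρ g x ∈ U) → U = ⊥ ∨ U = ⊤)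
    (hall : ∀ g, LinearMap.trace (ZMod p) V (ρ g) ^ 2 = (1 + LinearMap.det (ρ g)) ^ 2)
    (g₁ : G) (hd1 : LinearMap.det (ρ g₁) = 1) (hne1 : ρ g₁ ≠ 1) (hneN : ρ g₁ ≠ -1) : False := by
  have hfd : Module.Finite (ZMod p) V := Module.finite_of_finrank_eq_succ hV
  have h2 : (2 : ZMod p) ≠ 0 := by
    intro h
    have : ((2 : ℕ) : ZMod p) = 0 := by exact_mod_cast h
    rw [ZMod.natCast_eq_zero_iff] at this
    exact hp2 ((Nat.prime_dvd_prime_iff_eq hp.out Nat.prime_two).1 this)
  have h3 : (3 : ZMod p) ≠ 0 := by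
    intro h
    have : ((3 : ℕ) : ZMod p) = 0 := by exact_mod_cast h
    rw [ZMod.natCast_eq_zero_iff] at this
    exact hp3 ((Nat.prime_dvd_prime_iff_eq hp.out Nat.prime_three).1 this)
  set f := ρ g₁ with hf
  -- `tr f = 2 ε`, `ε = ±1`
  obtain ⟨ε, hε, hTε⟩ : ∃ ε : ZMod p, ε * ε = 1 ∧ LinearMap.trace (ZMod p) V f = 2 * ε := by
    have h0 := hall g₁
    rw [← hf, hd1] at h0
    have h : (LinearMap.trace (ZMod p) V f - 2) * (LinearMap.trace (ZMod p) V f + 2) = 0 := by
      linear_combination h0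
    rcases mul_eq_zero.1 h with h | h
    · exact ⟨1, by ring, by linear_combination h⟩
    · exact ⟨-1, by ring, by linear_combination h⟩
  -- `n₁ = f - ε` is square-zero and nonzero
  set n₁ : Module.End (ZMod p) V := f - ε • 1 with hn₁
  have hn₁0 : n₁ ≠ 0 := by
    intro h
    have hfε : f = ε • 1 := sub_eq_zero.1 h
    have hε' : (ε - 1) * (ε + 1) = 0 := by linear_combination hε
    rcases mul_eq_zero.1 hε' with h1 | h1
    · apply hne1
      rw [hfε, sub_eq_zero.1 h1, one_smul]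
    · apply hneN
      rw [hfε, eq_neg_of_add_eq_zero_left h1, neg_smul, one_smul]
  have hn₁sq : n₁ * n₁ = 0 := by
    refine LinearMap.ext fun v => ?_
    have hCH := apply_apply_eq hV f v
    rw [hd1, hTε, one_smul] at hCH
    rw [Module.End.mul_apply, hn₁, LinearMap.sub_apply, LinearMap.sub_apply, LinearMap.smul_apply,
      LinearMap.smul_apply, Module.End.one_apply, Module.End.one_apply, map_sub, map_smul, hCH,
      LinearMap.zero_apply, smul_sub, smul_smul, hε]
    module
  -- the transvection `t = f² = 1 + n`, `n = 2 ε n₁`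
  set n : Module.End (ZMod p) V := (2 * ε) • n₁ with hn
  have hε0 : ε ≠ 0 := by
    rintro rfl
    rw [mul_zero] at hε
    exact zero_ne_one hε
  have hn0 : n ≠ 0 := by
    rw [hn, Ne, smul_eq_zero, not_or]
    exact ⟨mul_ne_zero h2 hε0, hn₁0⟩
  have hnsq : n * n = 0 := by
    rw [hn, smul_mul_smul_comm, hn₁sq, smul_zero]
  have ht : ρ (g₁ * g₁) = 1 + n := by
    rw [map_mul, ← hf]
    have hfn : f = ε • 1 + n₁ := by rw [hn₁]; abel
    rw [hfn, add_mul, mul_add, mul_add, hn₁sq, add_zero, smul_mul_smul_comm, hε, one_smul,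
      mul_one, smul_mul_assoc, one_mul, mul_smul_comm, mul_one, hn, mul_smul, two_smul]
    abel
  -- a conjugate with a different axis
  obtain ⟨-, hk1⟩ := Fermat.Agent.GB.Def.TWHyp.range_eq_ker_and_finrank hV n hn0 hnsq
  obtain ⟨h, x, hx, hhx⟩ : ∃ (h : G) (x : V), n x = 0 ∧ n (ρ h x) ≠ 0 := by
    by_contra hcon
    push Not at hcon
    rcases hirr (LinearMap.ker n) (fun g x hx =>
      LinearMap.mem_ker.2 (hcon g x (LinearMap.mem_ker.1 hx))) with h | h
    · rw [h, finrank_bot] at hk1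
      norm_num at hk1
    · rw [h, finrank_top, hV] at hk1
      norm_num at hk1
  set n' : Module.End (ZMod p) V := ρ h * n * ρ h⁻¹ with hn'
  have hinv : ρ h⁻¹ * ρ h = 1 := by rw [← map_mul, inv_mul_cancel, map_one]
  have hinv' : ρ h * ρ h⁻¹ = 1 := by rw [← map_mul, mul_inv_cancel, map_one]
  have hn'sq : n' * n' = 0 := by
    rw [hn']
    calc ρ h * n * ρ h⁻¹ * (ρ h * n * ρ h⁻¹)
        = ρ h * n * (ρ h⁻¹ * ρ h) * n * ρ h⁻¹ := by simp only [mul_assoc]
      _ = 0 := by rw [hinv, mul_one, mul_assoc (ρ h), hnsq, mul_zero, zero_mul]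
  have hn'0 : n' ≠ 0 := by
    intro h0
    apply hn0
    have : ρ h⁻¹ * n' * ρ h = n := by
      rw [hn']
      calc ρ h⁻¹ * (ρ h * n * ρ h⁻¹) * ρ h
          = (ρ h⁻¹ * ρ h) * n * (ρ h⁻¹ * ρ h) := by simp only [mul_assoc]
        _ = n := by rw [hinv, one_mul, mul_one]
    rw [← this, h0, mul_zero, zero_mul]
  have hx' : n' (ρ h x) = 0 := by
    rw [hn', Module.End.mul_apply, Module.End.mul_apply, ← Module.End.mul_apply (ρ h⁻¹), hinv,
      Module.End.one_apply, hx, map_zero]
  have hc := trace_mul_ne_zero hV hnsq hn'sq hn'0 hx' hhx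
  set c := LinearMap.trace (ZMod p) V (n * n') with hcdef
  have ht' : ρ (h * (g₁ * g₁) * h⁻¹) = 1 + n' := by
    rw [map_mul, map_mul, ht, mul_add, add_mul, mul_one, hinv', hn']
  -- the family
  set k : ℕ := (2 * c⁻¹).val with hk
  have hkc : (k : ZMod p) * c = 2 := by
    rw [hk, ZMod.natCast_zmod_val, mul_assoc, inv_mul_cancel₀ hc, mul_one]
  have hfam := hall ((g₁ * g₁) * (h * (g₁ * g₁) * h⁻¹) ^ k)
  have hdetfam : LinearMap.det (ρ ((g₁ * g₁) * (h * (g₁ * g₁) * h⁻¹) ^ k)) = 1 := by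
    have e1 : LinearMap.det (ρ (g₁ * g₁)) = 1 := by
      rw [map_mul, map_mul, ← hf, hd1, one_mul]
    have e2 : LinearMap.det (ρ (h * (g₁ * g₁) * h⁻¹)) = 1 := by
      rw [map_mul, map_mul, map_mul, map_mul, e1, mul_one, ← map_mul, hinv', map_one]
    rw [map_mul, map_pow, map_mul, map_pow, e1, e2, one_pow, one_mul]
  rw [hdetfam, map_mul, map_pow, ht, ht', trace_family hV hnsq hn'sq k, ← hcdef, hkc] at hfam
  -- `16 = 4`
  have h12 : (2 : ZMod p) * 2 * 3 = 0 := by linear_combination hfam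
  rcases mul_eq_zero.1 h12 with h | h
  · rcases mul_eq_zero.1 h with h | h <;> exact h2 h
  · exact h3 h

/-- **some `ρ(g)` has no eigenvalue `±1`** (`p ≠ 2, 3`, `ρ` irreducible, `det ρ` with values in a
cyclic group generated by `det ρ(g₀)`). -/
theorem exists_trace_sq_ne (hV : finrank (ZMod p) V = 2) (hp2 : p ≠ 2) (hp3 : p ≠ 3)
    (hirr : ∀ U : Submodule (ZMod p) V, (∀ g, ∀ x ∈ U, ρ g x ∈ U) → U = ⊥ ∨ U = ⊤)
    (δ : G →* (ZMod p)ˣ) (hδ : ∀ g, LinearMap.det (ρ g) = (δ g : ZMod p)) (g₀ : G)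
    (hgen : ∀ g, δ g ∈ Subgroup.zpowers (δ g₀)) :
    ∃ g, LinearMap.trace (ZMod p) V (ρ g) ^ 2 ≠ (1 + LinearMap.det (ρ g)) ^ 2 := by
  by_contra hcon
  push Not at hcon
  by_cases hA : ∀ g, LinearMap.det (ρ g) = 1 → ρ g = 1 ∨ ρ g = -1
  · exact false_of_caseA ρ hV hirr δ hδ g₀ hgen (hcon g₀) hA
  · push Not at hA
    obtain ⟨g₁, hd1, hne1, hneN⟩ := hA
    exact false_of_caseB ρ hV hp2 hp3 hirr hcon g₁ hd1 hne1 hneN

end Main

end Fermat.Agent.GE8.AuxR.SigmaAbs
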