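/-
GATE-E / E8.3b AUXR, the (choose) half CLOSED (helper90): supply of `σ₀` for
`Choose.exists_aux_prime`, hence BINDER-FREE auxiliary primes.

* `exists_cyc_eq`            : the mod-`p` cyclotomic character of `G_ℚ` is onto;
* `exists_sigma_of_ne`       : `p ≠ 2, 3`, `W[p]` irreducible ⟹ some `ρ̄(σ₀)` has no eigenvalue `±1`
  (`SigmaAbs.exists_trace_sq_ne`, `det ρ̄ = χ_p` from `GB/A/A6/ECDet`);
* `exists_sigma_three`       : `p = 3`, `W` semistable ⟹ `σ₀` with `det = -1`, `tr ≠ 0`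
  (helper43 `Irr2.irr2_three`);
* **`exists_aux_prime_all`** : `W` semistable, `Δ ≠ 0`, `p` odd, `W[p]` irreducible ⟹ for every finite
  set `B` of primes there is a prime `r ∉ B`, `r ≡ 11 (mod 12)`, `r ≠ p`, `W` good at `r`,
  `a_r(W)² ≢ (r + 1)² (mod p)`;
* `exists_aux_prime_not_dvd` : the same with `r ∤ n` for a given `n ≠ 0` (shape of helper86's
  `AuxSupply`).
-/
import Fermat.Agent.GE8.AuxR.Choose
import Fermat.Agent.GE8.AuxR.SigmaAbs
import Fermat.Agent.GE8.Irr2.Final3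

set_option autoImplicit false
set_option linter.unusedSectionVars false
set_option linter.unusedVariables false

open scoped WeierstrassCurve.Affine
open Fermat.Agent.Common_helper32

namespace Fermat.Agent.GE8.AuxR.Sigma

open WeierstrassCurve WeierstrassCurve.Affine.Point Fermat.Agent.GE.ECAssembly
open Fermat.Agent.GJ.CycChar Fermat.Agent.GB.A.A6.ECDet
open Fermat.Agent.GL.Local.InertiaField

/-- **the mod-`p` cyclotomic character is onto.** -/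
theorem exists_cyc_eq (p : ℕ) [Fact p.Prime] (u : (ZMod p)ˣ) : ∃ σ : GQ, cyc p σ = u := by
  have hp : p.Prime := Fact.out
  obtain ⟨A, hA⟩ := exists_liesOverPrime p hp
  obtain ⟨ζ, hζ⟩ := exists_primitiveRoot p
  have hA' : ((p : ℕ) : Qb) ∈ A.nonunits := hA
  have hk : ¬ p ∣ (u : ZMod p).val := by
    intro h
    have h0 : (((u : ZMod p).val : ℕ) : ZMod p) = 0 := (ZMod.natCast_eq_zero_iff _ _).2 h
    rw [ZMod.natCast_zmod_val] at h0
    exact u.ne_zero h0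
  obtain ⟨σ, -, hσ⟩ := exists_mem_inertia_apply_zeta A hp hA' hζ hk
  refine ⟨σ, Units.ext ?_⟩
  rw [(cyc_eq_natCast_iff hζ σ _).2 hσ, ZMod.natCast_zmod_val]

variable (W : WeierstrassCurve ℤ) {p : ℕ} [hp : Fact p.Prime]

/-- `p ≠ 2, 3`, `W[p]` irreducible: some `ρ̄(σ₀)` has no eigenvalue `±1`. -/
theorem exists_sigma_of_ne (hΔ : W.Δ ≠ 0) (hp2 : p ≠ 2) (hp3 : p ≠ 3)
    (hirr : W.ModRepIsIrreducible p) :
    ∃ σ₀ : GQ, LinearMap.trace (ZMod p) (Tp W p) (rho W p σ₀) ^ 2 ≠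
      (1 + LinearMap.det (rho W p σ₀)) ^ 2 := by
  have hcard : Nat.card (Tp W p) = p ^ 2 := Fermat.Agent.GE8.Irr2.Transv.card_tors W hΔ hp.out
  obtain ⟨u, hu⟩ := IsCyclic.exists_generator (α := (ZMod p)ˣ)
  obtain ⟨g₀, hg₀⟩ := exists_cyc_eq p u
  exact Fermat.Agent.GE8.AuxR.SigmaAbs.exists_trace_sq_ne (rho W p) (finrank_Tp hcard) hp2 hp3
    (fun U hU => hirr.2 U hU) (cyc p) (det_rho hΔ hcard hirr) g₀
    (fun g => by rw [hg₀]; exact hu _)

/-- `p = 3`, `W` semistable, `W[3]` irreducible: `σ₀` with `det = -1`, `tr ≠ 0`. -/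
theorem exists_sigma_three [Fact (Nat.Prime 3)] (hss : W.IsSemistableModel) (hΔ : W.Δ ≠ 0)
    (hirr : W.ModRepIsIrreducible 3) :
    ∃ σ₀ : GQ, LinearMap.det (rho W 3 σ₀) = -1 ∧
      LinearMap.trace (ZMod 3) (Tp W 3) (rho W 3 σ₀) ≠ 0 := by
  have hcard : Nat.card (Tp W 3) = 3 ^ 2 :=
    Fermat.Agent.GE8.Irr2.Transv.card_tors W hΔ Nat.prime_three
  exact (Fermat.Agent.GE8.Irr2.irr2_three W hΔ hss hirr hcard (finiteLevel_rho hcard)).2 rfl

/-- **E8.3b (choose), binder-free.** -/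
theorem exists_aux_prime_all (hss : W.IsSemistableModel) (hΔ : W.Δ ≠ 0) (hp2 : p ≠ 2)
    (hirr : W.ModRepIsIrreducible p) (B : Finset ℕ) :
    ∃ r : ℕ, r.Prime ∧ r ∉ B ∧ r % 12 = 11 ∧ r ≠ p ∧ W.IsGoodPrimeFor r ∧
      (((W.apOfModel r : ℤ) : ZMod p)) ^ 2 ≠ ((r : ZMod p) + 1) ^ 2 := by
  by_cases hp3 : p = 3
  · subst hp3
    obtain ⟨σ₀, hdet, htr⟩ := exists_sigma_three W hss hΔ hirr
    refine Fermat.Agent.GE8.AuxR.Choose.exists_aux_prime W hss hΔ hp2 hirr σ₀ ?_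
      (fun _ => hdet) B
    rw [hdet]
    intro h
    apply htr
    have h0 : LinearMap.trace (ZMod 3) (Tp W 3) (rho W 3 σ₀) ^ 2 = 0 := by
      rw [h]; ring
    exact pow_eq_zero_iff (two_ne_zero) |>.1 h0
  · obtain ⟨σ₀, hσ₀⟩ := exists_sigma_of_ne W hΔ hp2 hp3 hirr
    exact Fermat.Agent.GE8.AuxR.Choose.exists_aux_prime W hss hΔ hp2 hirr σ₀ hσ₀
      (fun h => absurd h hp3) B

/-- the same, avoiding the prime divisors of a given `n ≠ 0`. -/
theorem exists_aux_prime_not_dvd (hss : W.IsSemistableModel) (hΔ : W.Δ ≠ 0) (hp2 : p ≠ 2)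
    (hirr : W.ModRepIsIrreducible p) {n : ℕ} (hn : n ≠ 0) :
    ∃ r : ℕ, r.Prime ∧ ¬ r ∣ n ∧ r % 12 = 11 ∧ r ≠ p ∧ W.IsGoodPrimeFor r ∧
      (((W.apOfModel r : ℤ) : ZMod p)) ^ 2 ≠ ((r : ZMod p) + 1) ^ 2 := by
  obtain ⟨r, hr, hrB, h12, hrp, hgood, har⟩ := exists_aux_prime_all W hss hΔ hp2 hirr n.primeFactors
  exact ⟨r, hr, fun h => hrB (Nat.mem_primeFactors.2 ⟨hr, h, hn⟩), h12, hrp, hgood, har⟩

end Fermat.Agent.GE8.AuxR.Sigma
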