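/-
GATE-E / E8.3b AUXR, the (remove) half, file 2 (helper10): **removing an auxiliary prime.**

`W/ℤ`, `Δ ≠ 0`, `p` odd, `W[p]` irreducible; `r` a prime with `r ∤ L`, `r ≠ p`, `W` good at `r` and
`a_r(W)² ≢ (r+1)² (mod p)`.  Then

  `W.IsResiduallyModularOfLevel p (L * r) → W.IsResiduallyModularOfLevel p L`.

Proof.  The Hecke–Galois datum `T` of `ρ̄_W` at level `L r` (`GB/Glue/DatumOfRhobar`), a point
`T → O'` in characteristic `0` (`GB/Glue/Points`), the eigenform `G` of level `L r` carrying it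
(`GB/B7/Point`), its newform companion `h` of level `M₁ ∣ L r` (`GE/Mod/MinLevel`).
* `r ∣ M₁`: then `r ∥ M₁` and the frozen S35 gives `charpoly ρ_h(Frob_r) = X² ∓ (r+1)X + r`; by
  `GE/Transfer.charpoly_eq_of_frobenius` the same holds for `ρ_T ⊗ O'`, whose reduction is `ρ̄_W`:
  `a_r(W) ≡ ±(r+1)`, contradiction.
* `r ∤ M₁`: then `M₁ ∣ L`; the place of `O'` gives a maximal ideal of `ℤ̄` (`Place.lean`) modulo which
  `a_ℓ(h) ≡ a_ℓ(W)` for almost all `ℓ`; `CongrAll` + `SplitT` conclude.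
-/
import Mathlib
import Fermat.Agent.GE8.AuxR.Place
import Fermat.Agent.GB.Setup.DatumPlug
import Fermat.Agent.GB.Setup.Coeff
import Fermat.Agent.GB.B7.Point
import Fermat.Agent.GB.Top.CongrAll
import Fermat.Agent.GB.Top.SplitT
import Fermat.Agent.GE8.Irr2.HabsW
import Fermat.Agent.GE.Mod.MinLevel
import Fermat.Agent.GE.Transfer
import Fermat.Agent.GJ.J4.EigChar
import Fermat.Agent.S54.Formal
import Fermat.Agent.S35
import Fermat.Agent.GB.A.A6.ECDet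
import Fermat.Agent.Common_helper32.FrobeniusExists
import Fermat.Agent.GE8.Irr2.Transv

set_option autoImplicit false
set_option linter.style.haveILetI false
set_option linter.unusedSectionVars false
set_option linter.unusedVariables false
set_option linter.unusedSimpArgs false

open WeierstrassCurve WeierstrassCurve.Affine.Point Polynomial IsLocalRing CuspForm
open ModularFormClass CongruenceSubgroup
open scoped WeierstrassCurve.Affine

namespace Fermat.Agent.GE8.AuxR.Remove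

open Fermat.Agent.GB.Setup.RhoBar Fermat.Agent.GB.Setup.Theta
  Fermat.Agent.GB.B4.Datum.Carrier Fermat.Agent.GB.B4.Datum.HeckeCarrier
open Fermat.Agent.GB.Glue

/-- `ℚ̄`. -/
local notation "Qb" => AlgebraicClosure ℚ
/-- `G_ℚ`. -/
local notation "GQ" => (AlgebraicClosure ℚ ≃ₐ[ℚ] AlgebraicClosure ℚ)
/-- `ℤ̄ ⊆ ℂ`. -/
local notation "Zbar" => integralClosure ℤ ℂ

section Main

variable {p : ℕ} [Fact p.Prime] {W : WeierstrassCurve ℤ}
  (hcard₁ : Nat.card (Submodule.torsionBy ℤ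
    ((W.map (Int.castRingHom ℚ))⁄(AlgebraicClosure ℚ)).Point p) = p ^ 2)
  (hker : GaloisFactorsThroughFiniteLevel
    (galoisRepModuleEnd (K := AlgebraicClosure ℚ) ℚ (W.map (Int.castRingHom ℚ)) p))

/-- equivalent residual representations have the same traces -/
theorem trace_eq_of_isEquiv {k : Type} [Field k] {ρ₁ ρ₂ : ResidualGaloisRep k}
    (h : ρ₁.IsEquiv ρ₂) (σ : GQ) :
    LinearMap.trace k ρ₁.V (ρ₁.ρ σ) = LinearMap.trace k ρ₂.V (ρ₂.ρ σ) := by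
  obtain ⟨e⟩ := h
  have h2 : ρ₂.ρ σ = e.toLinearEquiv.conj (ρ₁.ρ σ) := by
    refine LinearMap.ext fun y => ?_
    rw [LinearEquiv.conj_apply, LinearMap.comp_apply, LinearMap.comp_apply,
      LinearEquiv.coe_coe, LinearEquiv.coe_coe, e.map_apply, LinearEquiv.apply_symm_apply]
  rw [h2, LinearMap.trace_conj']

/-- **the characteristic-zero point**: a `p`-adic Galois representation `ρ` over a complete DVR
`O'` with the Frobenius characteristic polynomials of an eigensystem `χ` of level `M` lifting the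
residual eigensystem of `W`, residually `ρ̄_W`. -/
theorem exists_point_datum (hp2 : p ≠ 2) (hΔ : W.Δ ≠ 0) (hirr : W.ModRepIsIrreducible p)
    {M : ℕ} [NeZero M] (D : ModData W p M) (S : Finset ℕ)
    (hpS : p ∈ (↑S : Set ℕ)) (hMS : ∀ q : ℕ, q.Prime → q ∣ M → q ∈ (↑S : Set ℕ))
    (hWS : ∀ q : ℕ, q.Prime → ¬ W.IsGoodPrimeFor q → q ∈ (↑S : Set ℕ)) :
    ∃ (O' : Type) (_ : CommRing O') (_ : IsDomain O') (_ : IsDiscreteValuationRing O')
      (_ : IsAdicComplete (maximalIdeal O') O') (_ : Finite (ResidueField O')) (_ : CharZero O')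
      (χ : heckeAlgebra M 2 (↑S : Set ℕ) →+* O') (ρ : GaloisRepAdic O')
      (φ : ZMod p →+* ResidueField O'),
      (p : O') ∈ maximalIdeal O' ∧
      (∀ (ℓ : ℕ) (hℓ : ℓ.Prime) (hℓM : ¬ ℓ ∣ M) (hℓS : ℓ ∉ (↑S : Set ℕ)),
        χ (heckeAlgebra.T hℓ hℓM hℓS) - ((W.apOfModel ℓ : ℤ) : O') ∈ maximalIdeal O') ∧
      (∀ (ℓ : ℕ) (hℓ : ℓ.Prime) (hℓM : ¬ ℓ ∣ M) (hℓS : ℓ ∉ (↑S : Set ℕ)),
        ∀ A : ValuationSubring Qb, A.LiesOverPrime ℓ → ∀ σ : GQ, A.IsFrobeniusAt σ ℓ →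
          LinearMap.charpoly (ρ.ρ σ) =
            X ^ 2 - C (χ (heckeAlgebra.T hℓ hℓM hℓS)) * X + C ((ℓ : O'))) ∧
      (∀ σ : GQ, residue O' (LinearMap.trace O' ρ.V (ρ.ρ σ)) =
        φ (LinearMap.trace (ZMod p) (rb p W hcard₁ hker).V ((rb p W hcard₁ hker).ρ σ))) := by
  classical
  obtain ⟨𝒪, i1, i2, i3, i4, i5, i6, i7, hp𝒪, -, -, -⟩ :=
    Fermat.Agent.GB.Setup.Coeff.exists_coeffRing p hp2
  set θ : heckeAlgebra M 2 (↑S : Set ℕ) →+* ResidueField 𝒪 :=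
    thetaK D (↑S : Set ℕ) hpS hMS hWS (ResidueField 𝒪) with hθ
  have hNS : ∀ q : ℕ, q.Prime → q ∣ M → q ∈ S := fun q hq hqM => Finset.mem_coe.mp (hMS q hq hqM)
  have habs := Fermat.Agent.GE8.Irr2.HabsW.isAbsolutelyIrreducible_rb_baseChange hcard₁ hker hp2
    hΔ hirr (ResidueField 𝒪)
  obtain ⟨H, hHπ, -, -, hres⟩ := Fermat.Agent.GB.Glue.DatumOfRhobar.exists_datum p M S 𝒪 θ hp2
    (Finset.mem_coe.mp hpS) hNS hp𝒪 ((rb p W hcard₁ hker).baseChange (ResidueField 𝒪)) habs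
    (by
      intro ℓ hℓ hℓM hℓS P hP σ hσ
      exact ⟨_, hfrob_thetaK hcard₁ hker D (↑S : Set ℕ) hpS hMS hWS hΔ hirr (ResidueField 𝒪)
        ℓ hℓ hℓM hℓS P hP σ hσ⟩)
  haveI := Fermat.Agent.GB.Glue.DatumOfRhobar.isReduced_Tloc M S 𝒪 θ hNS
  obtain ⟨hloc, hinj⟩ := Points.exists_points (𝒪 := 𝒪) (T := Tloc 𝒪 θ)
  haveI : Nonempty (Points.Idx 𝒪 (Tloc 𝒪 θ)) := by
    by_contra hne
    rw [not_nonempty_iff] at hne
    exact one_ne_zero (hinj (1 : Tloc 𝒪 θ) (fun q => (hne.false q).elim))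
  obtain ⟨i0⟩ := ‹Nonempty (Points.Idx 𝒪 (Tloc 𝒪 θ))›
  set ψ : Tloc 𝒪 θ →+* Points.Rq i0 :=
    ((Points.ψ i0 : Tloc 𝒪 θ →ₐ[𝒪] Points.Rq i0) : Tloc 𝒪 θ →+* Points.Rq i0) with hψ
  haveI hlocψ : IsLocalHom ψ := hloc i0
  set φ₀ : ResidueField 𝒪 →+* ResidueField (Tloc 𝒪 θ) :=
    ResidueField.map (algebraMap 𝒪 (Tloc 𝒪 θ)) with hφ₀
  refine ⟨Points.Rq i0, inferInstance, inferInstance, inferInstance, inferInstance, inferInstance,
    inferInstance, ψ.comp H.π, H.ρ.baseChangeAlong ψ hlocψ,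
    (ResidueField.map ψ).comp (φ₀.comp (algebraMap (ZMod p) (ResidueField 𝒪))),
    Points.natCast_mem_maximalIdeal_Rq i0 hp𝒪, ?_, ?_, ?_⟩
  · intro ℓ hℓ hℓM hℓS
    rw [← residue_eq_zero_iff, map_sub, map_intCast, RingHom.comp_apply,
      ← ResidueField.map_residue ψ, H.residue_π, thetaK_T, map_intCast, map_intCast, sub_self]
  · intro ℓ hℓ hℓM hℓS A hA σ hσ
    rw [Fermat.Agent.S54.charpoly_baseChangeAlong, H.charpoly_frob ℓ hℓ hℓM hℓS A hA σ hσ]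
    simp [Polynomial.map_sub, Polynomial.map_add, Polynomial.map_mul, Polynomial.map_pow]
  · intro σ
    have h1 : LinearMap.trace (Points.Rq i0) (H.ρ.baseChangeAlong ψ hlocψ).V
        ((H.ρ.baseChangeAlong ψ hlocψ).ρ σ) = ψ (LinearMap.trace (Tloc 𝒪 θ) H.ρ.V (H.ρ.ρ σ)) := by
      letI : Algebra (Tloc 𝒪 θ) (Points.Rq i0) := ψ.toAlgebra
      exact LinearMap.trace_baseChange (H.ρ.ρ σ) (Points.Rq i0)
    have h2 := Habs.trace_residual H.ρ σ
    have h3 := trace_eq_of_isEquiv hres σ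
    have h4 := Habs.trace_baseChangeAlong φ₀ ((rb p W hcard₁ hker).baseChange (ResidueField 𝒪)) σ
    have h5 : LinearMap.trace (ResidueField 𝒪) ((rb p W hcard₁ hker).baseChange (ResidueField 𝒪)).V
        (((rb p W hcard₁ hker).baseChange (ResidueField 𝒪)).ρ σ) =
        algebraMap (ZMod p) (ResidueField 𝒪)
          (LinearMap.trace (ZMod p) (rb p W hcard₁ hker).V ((rb p W hcard₁ hker).ρ σ)) :=
      LinearMap.trace_baseChange ((rb p W hcard₁ hker).ρ σ) (ResidueField 𝒪)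
    rw [h1, ← ResidueField.map_residue ψ, ← h2, h3, h4, h5]
    rfl

end Main

/-! ### the inverse of an embedding on its range (copy of the three lemmas of `GB/B7/S35Plus`) -/

/-- `A ≃ ι(A)` for an injective `ι`. -/
noncomputable def rangeEquiv {O' : Type} [CommRing O'] {A : Subring O'} (ι : A →+* ℂ)
    (hι : Function.Injective ι) : A ≃+* ι.range :=
  RingEquiv.ofBijective ι.rangeRestrict
    ⟨fun a b h => hι (by simpa using congrArg Subtype.val h), ι.rangeRestrict_surjective⟩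

/-- the inverse of an injective ring homomorphism `ι : A →+* ℂ` (`A` a subring of `O'`) on its
range, valued in `O'`. -/
noncomputable def invOnRange {O' : Type} [CommRing O'] {A : Subring O'} (ι : A →+* ℂ)
    (hι : Function.Injective ι) : ι.range →+* O' :=
  (Subring.subtype A).comp ((rangeEquiv ι hι).symm : ι.range →+* A)

theorem invOnRange_apply {O' : Type} [CommRing O'] {A : Subring O'} (ι : A →+* ℂ)
    (hι : Function.Injective ι) (a : A) (h : ι a ∈ ι.range) :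
    invOnRange ι hι ⟨ι a, h⟩ = (a : O') := by
  have h1 : (⟨ι a, h⟩ : ι.range) = rangeEquiv ι hι a := rfl
  show (Subring.subtype A) ((rangeEquiv ι hι).symm ⟨ι a, h⟩) = _
  rw [h1, RingEquiv.symm_apply_apply]
  rfl

/-! ### S35 for the newform companion, transferred to a given `ρ` -/

section Companion

variable {N : ℕ} [NeZero N]

/-- **S35 at `q ∥ M₁`** for the newform companion `h` (level `M₁ ∣ N`) of an eigenform `G` of level
`N` carrying the eigensystem `χ`, transferred to a GIVEN `ρ` with the good characteristic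
polynomials of `χ`  (= Case A of `GB/B7/S35Plus.charpoly_frob_of_sq_eq_one`). -/
theorem charpoly_frob_of_companion
    (lam : ℕ) [Fact lam.Prime] (S : Finset ℕ)
    (O' : Type) [CommRing O'] [IsDomain O'] [IsDiscreteValuationRing O']
    [IsAdicComplete (IsLocalRing.maximalIdeal O') O'] [Finite (IsLocalRing.ResidueField O')]
    [CharZero O'] (hlamO' : (lam : O') ∈ IsLocalRing.maximalIdeal O')
    (hlamS : lam ∈ S) (hNS : ∀ r : ℕ, r.Prime → r ∣ N → r ∈ S)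
    (χ : CuspForm.heckeAlgebra N 2 (↑S : Set ℕ) →+* O')
    {G : CuspForm (Gamma0 N) 2}
    (ι : χ.range →+* ℂ) (hι : Function.Injective ι)
    (hGχ : ∀ (ℓ : ℕ) (hℓ : ℓ.Prime) (hℓN : ¬ ℓ ∣ N) (hℓS : ℓ ∉ (↑S : Set ℕ)),
      ι (χ.rangeRestrict (CuspForm.heckeAlgebra.T hℓ hℓN hℓS)) = qCoeff G ℓ)
    {M₁ : ℕ} [NeZero M₁] (hM₁N : M₁ ∣ N) {h : CuspForm (Gamma0 M₁) 2} (hh : h.IsNewform)
    (hhG : ∀ ℓ : ℕ, ℓ.Prime → ¬ ℓ ∣ N → qCoeff h ℓ = qCoeff G ℓ)
    (q : ℕ) (hq : q.Prime) (hqlam : q ≠ lam) (hqM₁ : q ∣ M₁) (hq2M : ¬ q ^ 2 ∣ M₁)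
    (ρ : GaloisRepAdic O')
    (hρ : ∀ (ℓ : ℕ) (hℓ : ℓ.Prime) (hℓN : ¬ ℓ ∣ N) (hℓS : ℓ ∉ (↑S : Set ℕ)),
      ∀ A : ValuationSubring Qb, A.LiesOverPrime ℓ → ∀ σ : GQ, A.IsFrobeniusAt σ ℓ →
        LinearMap.charpoly (ρ.ρ σ) =
          X ^ 2 - C (χ (CuspForm.heckeAlgebra.T hℓ hℓN hℓS)) * X + C ((ℓ : O'))) :
    ∀ A : ValuationSubring Qb, A.LiesOverPrime q → ∀ σ : GQ, A.IsFrobeniusAt σ q →
      LinearMap.charpoly (ρ.ρ σ) = X ^ 2 - C ((q : O') + 1) * X + C ((q : O')) ∨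
      LinearMap.charpoly (ρ.ρ σ) = X ^ 2 + C ((q : O') + 1) * X + C ((q : O')) := by
  classical
  intro A hA σ hσ
  set R : Subring ℂ := ι.range with hR
  set e : R →+* O' := invOnRange ι hι with he
  -- good coefficients of `h` lie in `R`, and `e` sends them to `χ (T_ℓ)`
  have hgoodR : ∀ (ℓ : ℕ) (hℓ : ℓ.Prime) (hℓN : ¬ ℓ ∣ N) (hℓS : ℓ ∉ (↑S : Set ℕ)),
      ∃ hm : qCoeff h ℓ ∈ R, e ⟨qCoeff h ℓ, hm⟩ = χ (CuspForm.heckeAlgebra.T hℓ hℓN hℓS) := by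
    intro ℓ hℓ hℓN hℓS
    have h1 : qCoeff h ℓ = ι (χ.rangeRestrict (CuspForm.heckeAlgebra.T hℓ hℓN hℓS)) := by
      rw [hGχ ℓ hℓ hℓN hℓS, hhG ℓ hℓ hℓN]
    have hm : qCoeff h ℓ ∈ R := h1 ▸ ⟨_, rfl⟩
    refine ⟨hm, ?_⟩
    have h2 : (⟨qCoeff h ℓ, hm⟩ : R) =
        ⟨ι (χ.rangeRestrict (CuspForm.heckeAlgebra.T hℓ hℓN hℓS)), ⟨_, rfl⟩⟩ := Subtype.ext h1
    rw [h2, he, invOnRange_apply]
    rfl
  have hM₁S : ∀ r : ℕ, r.Prime → r ∣ M₁ → r ∈ S := fun r hr hrM => hNS r hr (hrM.trans hM₁N)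
  set chih : CuspForm.heckeAlgebra M₁ 2 (↑S : Set ℕ) →+* ℂ :=
    Fermat.Agent.GJ.EigChar.lam hh.1 with hchih
  have hchihT : ∀ (ℓ : ℕ) (hℓ : ℓ.Prime) (hℓM : ¬ ℓ ∣ M₁) (hℓS : ℓ ∉ (↑S : Set ℕ)),
      chih (CuspForm.heckeAlgebra.T hℓ hℓM hℓS) = qCoeff h ℓ :=
    fun ℓ hℓ hℓM hℓS => Fermat.Agent.GJ.EigChar.lam_T hh.1 hℓ hℓM hℓS
  have hmem : ∀ t, chih t ∈ R := by
    intro t
    refine Fermat.Agent.S54.pi_mem_of_T_mem chih (fun r hr hrM => hM₁S r hr hrM) R ?_ t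
    intro ℓ hℓ hℓM hℓS
    rw [hchihT ℓ hℓ hℓM hℓS]
    have hℓN : ¬ ℓ ∣ N := fun hd => hℓS (hNS ℓ hℓ hd)
    exact (hgoodR ℓ hℓ hℓN hℓS).1
  have hle : chih.range ≤ R := by
    rintro _ ⟨t, rfl⟩
    exact hmem t
  set iota : chih.range →+* O' := e.comp (Subring.inclusion hle) with hiota
  obtain ⟨O'', i1, i2, i3, i4, i5, i6, i7, i8, i9, hinj, ρ'', hρ1, hρ2⟩ :=
    Fermat.Agent.S35.result hh lam S O' hlamO' chih hchihT iota hlamS hM₁S
  have hcmp : ∀ τ : GQ, LinearMap.charpoly ((ρ.baseChangeAlong (algebraMap O' O'') i9).ρ τ) =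
      LinearMap.charpoly (ρ''.ρ τ) := by
    intro τ
    refine Fermat.Agent.GE.Transfer.charpoly_eq_of_frobenius _ _ S ?_ τ
    intro ℓ hℓ hℓS B hB τ' hτ'
    have hℓS' : ℓ ∉ (↑S : Set ℕ) := by simpa using hℓS
    have hℓN : ¬ ℓ ∣ N := fun hd => hℓS (hNS ℓ hℓ hd)
    have hℓM : ¬ ℓ ∣ M₁ := fun hd => hℓN (hd.trans hM₁N)
    rw [Fermat.Agent.S54.charpoly_baseChangeAlong, hρ ℓ hℓ hℓN hℓS' B hB τ' hτ',
      hρ1 ℓ hℓ hℓM hℓS' B hB τ' hτ']
    obtain ⟨hm, hem⟩ := hgoodR ℓ hℓ hℓN hℓS'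
    have h3 : (iota.comp chih.rangeRestrict) (CuspForm.heckeAlgebra.T hℓ hℓM hℓS') =
        χ (CuspForm.heckeAlgebra.T hℓ hℓN hℓS') := by
      rw [← hem, hiota]
      show e (Subring.inclusion hle (chih.rangeRestrict _)) = _
      congr 1
      apply Subtype.ext
      exact hchihT ℓ hℓ hℓM hℓS'
    rw [h3]
    simp [Polynomial.map_sub, Polynomial.map_add, Polynomial.map_mul, Polynomial.map_pow]
  have hfin := hρ2 q hq hqlam hqM₁ hq2M A hA σ hσ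
  rw [← hcmp σ, Fermat.Agent.S54.charpoly_baseChangeAlong] at hfin
  have hmapinj := Polynomial.map_injective (algebraMap O' O'') hinj
  rcases hfin with h1 | h1
  · left
    apply hmapinj
    rw [h1]
    simp [Polynomial.map_sub, Polynomial.map_add, Polynomial.map_mul, Polynomial.map_pow]
  · right
    apply hmapinj
    rw [h1]
    simp [Polynomial.map_sub, Polynomial.map_add, Polynomial.map_mul, Polynomial.map_pow]

end Companion


/-! ### the theorem -/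

section Final

open Fermat.Agent.GB.A.A6.ECDet

variable {p : ℕ} [Fact p.Prime] {W : WeierstrassCurve ℤ}
  (hcard₁ : Nat.card (Submodule.torsionBy ℤ
    ((W.map (Int.castRingHom ℚ))⁄(AlgebraicClosure ℚ)).Point p) = p ^ 2)
  (hker : GaloisFactorsThroughFiniteLevel
    (galoisRepModuleEnd (K := AlgebraicClosure ℚ) ℚ (W.map (Int.castRingHom ℚ)) p))

/-- `tr ρ̄_W(Frob_r) = a_r(W)` on the frozen `rb`, at a good prime `r ≠ p`. -/
theorem trace_rb_frob (hΔ : W.Δ ≠ 0) (hirr : W.ModRepIsIrreducible p) {r : ℕ} (hr : r.Prime)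
    (hrp : r ≠ p) (hgood : W.IsGoodPrimeFor r) (A : ValuationSubring Qb) (hA : A.LiesOverPrime r)
    (τ : GQ) (hτ : A.IsFrobeniusAt τ r) :
    LinearMap.trace (ZMod p) (rb p W hcard₁ hker).V ((rb p W hcard₁ hker).ρ τ) =
      ((W.apOfModel r : ℤ) : ZMod p) := by
  have hcard : Nat.card (Tp W p) = p ^ 2 := hcard₁
  have hfin := finite_Tp hcard
  have hmf : Module.Finite (ZMod p) (Tp W p) := Module.Finite.of_finite
  let b : Module.Basis (Fin 2) (ZMod p) (Tp W p) :=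
    Module.finBasisOfFinrankEq (ZMod p) (Tp W p) (finrank_Tp hcard)
  have htr : LinearMap.trace (ZMod p) (Tp W p) (rho W p τ) = ((W.apOfModel r : ℤ) : ZMod p) := by
    rw [← trace_rhoM_frob hΔ hcard hirr b hr hrp hgood A hA τ hτ, rhoM_apply]
    exact LinearMap.trace_eq_matrix_trace (ZMod p) b _
  exact htr

include hcard₁ hker in
/-- **E8.3b (remove), with the `rb` binders.** -/
theorem isResiduallyModularOfLevel_of_mul_aux' (hp2 : p ≠ 2) (hΔ : W.Δ ≠ 0)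
    (hirr : W.ModRepIsIrreducible p) {L r : ℕ} (hL : L ≠ 0) (hr : r.Prime) (hrL : ¬ r ∣ L)
    (hrp : r ≠ p) (hgood : W.IsGoodPrimeFor r)
    (hne : ((W.apOfModel r : ℤ) : ZMod p) ^ 2 ≠ ((r : ZMod p) + 1) ^ 2)
    (hres : W.IsResiduallyModularOfLevel p (L * r)) :
    W.IsResiduallyModularOfLevel p L := by
  classical
  have hpp : p.Prime := Fact.out
  have hM0 : L * r ≠ 0 := mul_ne_zero hL hr.ne_zero
  haveI : NeZero (L * r) := ⟨hM0⟩
  obtain ⟨D⟩ := (nonempty_modData_iff W p (L * r)).mp hres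
  set S : Finset ℕ := insert p ((L * r).primeFactors ∪ W.Δ.natAbs.primeFactors) with hS
  have hpSf : p ∈ S := Finset.mem_insert_self _ _
  have hNS : ∀ q : ℕ, q.Prime → q ∣ L * r → q ∈ S := fun q hq hqM =>
    Finset.mem_insert_of_mem (Finset.mem_union_left _ (Nat.mem_primeFactors.mpr ⟨hq, hqM, hM0⟩))
  have hWSf : ∀ q : ℕ, q.Prime → ¬ W.IsGoodPrimeFor q → q ∈ S := by
    intro q hq hbad
    have hd : (q : ℤ) ∣ W.Δ := not_not.mp hbad
    exact Finset.mem_insert_of_mem (Finset.mem_union_right _ (Nat.mem_primeFactors.mpr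
      ⟨hq, Int.natCast_dvd.mp hd, Int.natAbs_ne_zero.mpr hΔ⟩))
  have hpS : p ∈ (↑S : Set ℕ) := Finset.mem_coe.mpr hpSf
  have hMS : ∀ q : ℕ, q.Prime → q ∣ L * r → q ∈ (↑S : Set ℕ) := fun q hq hqM =>
    Finset.mem_coe.mpr (hNS q hq hqM)
  have hWS : ∀ q : ℕ, q.Prime → ¬ W.IsGoodPrimeFor q → q ∈ (↑S : Set ℕ) := fun q hq hb =>
    Finset.mem_coe.mpr (hWSf q hq hb)
  obtain ⟨O', i1, i2, i3, i4, i5, i6, χ, ρ, φ, hpO', hχW, hρ, htr⟩ :=
    exists_point_datum hcard₁ hker hp2 hΔ hirr D S hpS hMS hWS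
  obtain ⟨ι, hι, G, hG, hGχ, -⟩ :=
    Fermat.Agent.GB.B7.Point.exists_eigenform_of_point_set (↑S : Set ℕ) χ
  obtain ⟨M₁, hM₁N, h, hh, hhG⟩ :=
    Fermat.Agent.GE.Mod.MinLevel.exists_isNewform_of_isNormalizedEigenform hG
  have hM₁0 : M₁ ≠ 0 := fun h0 => hM0 (by rw [h0] at hM₁N; exact Nat.eq_zero_of_zero_dvd hM₁N)
  haveI : NeZero M₁ := ⟨hM₁0⟩
  by_cases hrM₁ : r ∣ M₁
  · -- `r ∥ M₁`: S35 gives `a_r(W) ≡ ±(r+1)`
    exfalso
    have hr2 : ¬ r ^ 2 ∣ M₁ := by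
      intro hd
      have h1 : r * r ∣ L * r := by rw [← pow_two]; exact hd.trans hM₁N
      exact hrL (Nat.dvd_of_mul_dvd_mul_right hr.pos h1)
    obtain ⟨A, τ, hA, hτ⟩ := Fermat.Agent.Common_helper32.exists_isFrobeniusAt r hr
    have hcp := charpoly_frob_of_companion p S O' hpO' hpSf hNS χ ι hι
      (fun ℓ hℓ hℓN hℓS => (hGχ ℓ hℓ hℓN hℓS).symm) hM₁N hh hhG r hr hrp hrM₁ hr2 ρ hρ A hA τ hτ
    have key := htr τ
    rw [trace_rb_frob hcard₁ hker hΔ hirr hr hrp hgood A hA τ hτ] at key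
    apply hne
    apply φ.injective
    rw [map_pow, map_pow, map_add, map_one, map_natCast, ← key]
    rcases hcp with h1 | h1
    · rw [Habs.trace_eq_of_charpoly_eq ρ τ ((r : O') + 1) (r : O') h1]
      simp
    · have h2 : LinearMap.charpoly (ρ.ρ τ) = X ^ 2 - C (-((r : O') + 1)) * X + C (r : O') := by
        rw [h1, C_neg, neg_mul, sub_neg_eq_add]
      rw [Habs.trace_eq_of_charpoly_eq ρ τ (-((r : O') + 1)) (r : O') h2]
      simp only [map_neg, map_add, map_natCast, map_one]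
      ring
  · -- `r ∤ M₁`: the companion has level `M₁ ∣ L`
    have hcop : Nat.Coprime M₁ r := (Nat.Coprime.symm ((Nat.Prime.coprime_iff_not_dvd hr).mpr hrM₁))
    have hM₁L : M₁ ∣ L := hcop.dvd_of_dvd_mul_right hM₁N
    refine Fermat.Agent.GB.Top.SplitT.isResiduallyModularOfLevel_of_dvd ?_ hM₁L hL
    -- the place
    haveI : Module.Finite ℤ (heckeAlgebra (L * r) 2 (↑S : Set ℕ)) :=
      Fermat.Agent.S22.result (L * r) 2 (↑S : Set ℕ)
    haveI : Module.Finite ℤ χ.range :=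
      Module.Finite.of_surjective χ.rangeRestrict.toIntAlgHom.toLinearMap
        χ.rangeRestrict_surjective
    haveI : Algebra.IsIntegral ℤ χ.range := Algebra.IsIntegral.of_finite ℤ _
    obtain ⟨j, Q, hj, hQmax, hpQ, hjQ⟩ := Fermat.Agent.GE8.AuxR.Place.exists_maximal_over
      (χ.range.subtype) ι hι hpp hpO'
    refine Fermat.Agent.GB.Top.CongrAll.isResiduallyModularOfLevel_of_cofinite W hΔ p M₁ hpp h Q
      hh.1 hQmax hpQ S ?_
    intro ℓ hℓ hℓS hgoodℓ hℓM₁ hℓp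
    have hℓS' : ℓ ∉ (↑S : Set ℕ) := by simpa using hℓS
    have hℓN : ¬ ℓ ∣ L * r := fun hd => hℓS (hNS ℓ hℓ hd)
    refine ⟨j (χ.rangeRestrict (heckeAlgebra.T hℓ hℓN hℓS')), ?_, ?_⟩
    · rw [hj, hhG ℓ hℓ hℓN, hGχ ℓ hℓ hℓN hℓS']
    · have h1 : j (χ.rangeRestrict (heckeAlgebra.T hℓ hℓN hℓS')) -
          ((W.apOfModel ℓ : ℤ) : Zbar) =
          j (χ.rangeRestrict (heckeAlgebra.T hℓ hℓN hℓS') - ((W.apOfModel ℓ : ℤ) : χ.range)) := by
        rw [map_sub, map_intCast]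
      rw [h1]
      apply hjQ
      have h2 : χ.range.subtype (χ.rangeRestrict (heckeAlgebra.T hℓ hℓN hℓS') -
          ((W.apOfModel ℓ : ℤ) : χ.range)) =
          χ (heckeAlgebra.T hℓ hℓN hℓS') - ((W.apOfModel ℓ : ℤ) : O') := by
        rw [map_sub, map_intCast]
        rfl
      rw [h2]
      exact hχW ℓ hℓ hℓN hℓS'

/-- **E8.3b (remove), binder-free.**  An auxiliary prime `r ∤ L`, `r ≠ p`, good for `W`, with
`a_r(W)² ≢ (r+1)² (mod p)` can be removed from the level of `ρ̄_{W,p}` (`p` odd, `W[p]`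
irreducible). -/
theorem isResiduallyModularOfLevel_of_mul_aux (hp2 : p ≠ 2) (hΔ : W.Δ ≠ 0)
    (hirr : W.ModRepIsIrreducible p) {L r : ℕ} (hL : L ≠ 0) (hr : r.Prime) (hrL : ¬ r ∣ L)
    (hrp : r ≠ p) (hgood : W.IsGoodPrimeFor r)
    (hne : ((W.apOfModel r : ℤ) : ZMod p) ^ 2 ≠ ((r : ZMod p) + 1) ^ 2)
    (hres : W.IsResiduallyModularOfLevel p (L * r)) :
    W.IsResiduallyModularOfLevel p L := by
  have hcard : Nat.card (Tp W p) = p ^ 2 :=
    Fermat.Agent.GE8.Irr2.Transv.card_tors W hΔ (Fact.out : p.Prime)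
  exact isResiduallyModularOfLevel_of_mul_aux' hcard (finiteLevel_rho hcard) hp2 hΔ hirr hL hr hrL
    hrp hgood hne hres

/-- the same in the `∀ L` shape (`RemovableAux` of E8.3a, without the squarefreeness binder). -/
theorem removableAux (hp2 : p ≠ 2) (hΔ : W.Δ ≠ 0) (hirr : W.ModRepIsIrreducible p) {r : ℕ}
    (hr : r.Prime) (hrp : r ≠ p) (hgood : W.IsGoodPrimeFor r)
    (hne : ((W.apOfModel r : ℤ) : ZMod p) ^ 2 ≠ ((r : ZMod p) + 1) ^ 2) :
    ∀ L : ℕ, L ≠ 0 → ¬ r ∣ L → W.IsResiduallyModularOfLevel p (L * r) →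
      W.IsResiduallyModularOfLevel p L :=
  fun L hL hrL hres =>
    isResiduallyModularOfLevel_of_mul_aux hp2 hΔ hirr hL hr hrL hrp hgood hne hres

end Final

end Fermat.Agent.GE8.AuxR.Remove
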