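/-
GATE-E / E8.3b AUXR (remove), tool (helper81): **a complete DVR place AT A GIVEN PRIME** of an order
in a number field (refinement of `GE/DvrPlace.exists_completeDVR_place`, which picks an arbitrary
place over `lam`).

`exists_completeDVR_place_at` : `R0` a domain of characteristic zero, module-finite over `ℤ`,
`P` a maximal ideal of `R0` containing the prime number `lam`  ⟹  a complete discrete valuation ring
`O` of characteristic zero with finite residue field, `(lam : O) ∈ 𝔪_O`, and an INJECTIVE ring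
homomorphism `iota : R0 →+* O` with `iota⁻¹(𝔪_O) = P`.

Construction: `R̂ := ℤ_[lam] ⊗[ℤ] R0` (finite free over `ℤ_[lam]`), `P̂ := ker (R̂ → R0 ⧸ P)`
maximal; a minimal prime `𝔮 ≤ P̂` of `R̂` is the contraction of a prime (= maximal) ideal `m` of
`A := ℚ_[lam] ⊗[ℤ] R0` (`R̂ → A` is injective by flatness of `R0`); `O` := integral closure of
`ℤ_[lam]` in `A ⧸ m` (`GJ/Ext/CompleteDVRExt`).  `R̂ → O` is integral with kernel `𝔮 ≤ P̂`, so by
lying over some maximal ideal of `O` contracts to `P̂`; `O` is local, so `𝔪_O` contracts to `P̂`,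
hence to `P` in `R0`.
-/
import Mathlib
import Fermat.Agent.GE.DvrPlace

set_option autoImplicit false
set_option linter.style.haveILetI false
set_option linter.unusedSectionVars false

namespace Fermat.Agent.GE8.AuxR.PlaceAt

open IsLocalRing TensorProduct Fermat.Agent.GE.DvrPlace

section Abstract

variable (R0 : Type) [CommRing R0] [IsDomain R0] [CharZero R0] [Module.Finite ℤ R0]
variable (lam : ℕ) [Fact lam.Prime]

/-- `R̂ = ℤ_[lam] ⊗[ℤ] R0`. -/
abbrev RHat : Type := ℤ_[lam] ⊗[ℤ] R0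

/-- the natural map `R̂ → A = ℚ_[lam] ⊗[ℤ] R0`. -/
noncomputable def psi : RHat R0 lam →ₐ[ℤ] TAlg R0 lam :=
  Algebra.TensorProduct.map ((algebraMap ℤ_[lam] ℚ_[lam]).toIntAlgHom) (AlgHom.id ℤ R0)

theorem psi_tmul (x : ℤ_[lam]) (r : R0) :
    psi R0 lam (x ⊗ₜ[ℤ] r) = (x : ℚ_[lam]) ⊗ₜ[ℤ] r := rfl

theorem psi_injective : Function.Injective (psi R0 lam) := by
  haveI : Module.IsTorsionFree ℤ R0 := inferInstance
  haveI : Module.Free ℤ R0 := Module.free_of_finite_type_torsion_free'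
  have hinj : Function.Injective ((algebraMap ℤ_[lam] ℚ_[lam]).toIntAlgHom.toLinearMap) :=
    fun a b h => (IsFractionRing.injective ℤ_[lam] ℚ_[lam]) h
  have h := Module.Flat.rTensor_preserves_injective_linearMap (M := R0)
    ((algebraMap ℤ_[lam] ℚ_[lam]).toIntAlgHom.toLinearMap) hinj
  have e : ∀ t : RHat R0 lam, psi R0 lam t =
      ((algebraMap ℤ_[lam] ℚ_[lam]).toIntAlgHom.toLinearMap).rTensor R0 t := by
    intro t
    induction t using TensorProduct.induction_on with
    | zero => simp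
    | tmul x r => rfl
    | add a b ha hb => rw [map_add, map_add, ha, hb]
  intro a b hab
  apply h
  rw [← e, ← e, hab]

end Abstract

/-- **DVR-PLACE at a prime.** -/
theorem exists_completeDVR_place_at (R0 : Type) [CommRing R0] [IsDomain R0] [CharZero R0]
    [Module.Finite ℤ R0] (lam : ℕ) [Fact lam.Prime] (P : Ideal R0) [hPmax : P.IsMaximal]
    (hP : (lam : R0) ∈ P) :
    ∃ (O : Type) (_ : CommRing O) (_ : IsDomain O) (_ : IsDiscreteValuationRing O)
      (_ : IsAdicComplete (IsLocalRing.maximalIdeal O) O)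
      (_ : Finite (IsLocalRing.ResidueField O)) (_ : CharZero O),
      (lam : O) ∈ IsLocalRing.maximalIdeal O ∧ ∃ iota : R0 →+* O, Function.Injective iota ∧
        (IsLocalRing.maximalIdeal O).comap iota = P := by
  classical
  -- the residue field `R0 ⧸ P` has characteristic `lam`
  haveI : Nontrivial (R0 ⧸ P) := Ideal.Quotient.nontrivial_iff.mpr hPmax.ne_top
  haveI hchar : CharP (R0 ⧸ P) lam :=
    (CharP.charP_iff_prime_eq_zero (Fact.out : lam.Prime)).2 (by
      rw [← map_natCast (Ideal.Quotient.mk P)]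
      exact Ideal.Quotient.eq_zero_iff_mem.2 hP)
  -- `φ : R̂ → R0 ⧸ P`
  let φ₁ : ℤ_[lam] →ₐ[ℤ] (R0 ⧸ P) :=
    ((ZMod.castHom (dvd_refl lam) (R0 ⧸ P)).comp PadicInt.toZMod).toIntAlgHom
  let φ₂ : R0 →ₐ[ℤ] (R0 ⧸ P) := (Ideal.Quotient.mk P).toIntAlgHom
  let φ : RHat R0 lam →ₐ[ℤ] (R0 ⧸ P) := Algebra.TensorProduct.productMap φ₁ φ₂
  have hφ_incl : ∀ r : R0, φ ((1 : ℤ_[lam]) ⊗ₜ[ℤ] r) = Ideal.Quotient.mk P r := by
    intro r
    change φ₁ 1 * φ₂ r = _
    rw [map_one, one_mul]
    rfl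
  have hφsurj : Function.Surjective φ.toRingHom := by
    intro y
    obtain ⟨r, rfl⟩ := Ideal.Quotient.mk_surjective y
    exact ⟨(1 : ℤ_[lam]) ⊗ₜ[ℤ] r, hφ_incl r⟩
  letI : Field (R0 ⧸ P) := Ideal.Quotient.field P
  haveI hPhat : (RingHom.ker φ.toRingHom).IsMaximal :=
    RingHom.ker_isMaximal_of_surjective φ.toRingHom hφsurj
  -- a minimal prime below `P̂`, and a prime of `A` above it
  obtain ⟨𝔮, h𝔮min, h𝔮le⟩ :=
    Ideal.exists_minimalPrimes_le (I := ⊥) (J := RingHom.ker φ.toRingHom) bot_le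
  obtain ⟨m, hmprime, hmcomap⟩ :=
    Ideal.exists_comap_eq_of_mem_minimalPrimes_of_injective
      (f := (psi R0 lam).toRingHom) (psi_injective R0 lam) 𝔮 h𝔮min
  haveI := finite_TAlg R0 lam
  haveI : IsArtinianRing (TAlg R0 lam) := IsArtinianRing.of_finite ℚ_[lam] _
  haveI hm : m.IsMaximal := IsArtinianRing.isMaximal_of_isPrime m
  letI : Field (TAlg R0 lam ⧸ m) := Ideal.Quotient.field m
  letI algQ : Algebra ℚ_[lam] (TAlg R0 lam ⧸ m) := inferInstance
  letI algZ : Algebra ℤ_[lam] (TAlg R0 lam ⧸ m) := inferInstance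
  haveI tower : IsScalarTower ℤ_[lam] ℚ_[lam] (TAlg R0 lam ⧸ m) := inferInstance
  haveI : Module.Finite ℚ_[lam] (TAlg R0 lam ⧸ m) :=
    Module.Finite.of_surjective (Ideal.Quotient.mkₐ ℚ_[lam] m).toLinearMap
      (Ideal.Quotient.mkₐ_surjective ℚ_[lam] m)
  haveI : FiniteDimensional ℚ_[lam] (TAlg R0 lam ⧸ m) := inferInstance
  obtain ⟨O, iCR, iDom, iDVR, iComp, iRes, iChar, iAlg, iFin, iLoc, iAlgK, iTow, iFrac, hinj⟩ :=
    Fermat.Agent.GJ.Ext.exists_completeDVR_ext ℤ_[lam] ℚ_[lam] (TAlg R0 lam ⧸ m)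
  refine ⟨O, iCR, iDom, iDVR, iComp, iRes, iChar,
    natCast_mem_maximalIdeal_of_isLocalHom lam O, ?_⟩
  -- the map `R̂ → K''`
  let F : RHat R0 lam →+* (TAlg R0 lam ⧸ m) :=
    (Ideal.Quotient.mk m).comp (psi R0 lam).toRingHom
  have hFker : RingHom.ker F = 𝔮 := by
    rw [← hmcomap]
    ext t
    rw [RingHom.mem_ker, Ideal.mem_comap]
    exact Ideal.Quotient.eq_zero_iff_mem
  haveI : CharZero (TAlg R0 lam ⧸ m) :=
    charZero_of_injective_algebraMap (algebraMap ℚ_[lam] (TAlg R0 lam ⧸ m)).injective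
  -- `F (x ⊗ 1) = x`
  have hFalg : ∀ x : ℤ_[lam], F (x ⊗ₜ[ℤ] (1 : R0)) = algebraMap ℤ_[lam] (TAlg R0 lam ⧸ m) x := by
    intro x
    change Ideal.Quotient.mk m ((x : ℚ_[lam]) ⊗ₜ[ℤ] (1 : R0)) = _
    rw [IsScalarTower.algebraMap_apply ℤ_[lam] ℚ_[lam] (TAlg R0 lam ⧸ m)]
    rfl
  -- every value of `F` is integral over `ℤ_[lam]`, hence lies in `O`
  haveI : Module.Finite ℤ_[lam] (RHat R0 lam) := Module.Finite.base_change ℤ ℤ_[lam] R0
  have hint : ∀ t : RHat R0 lam, ∃ y : O, algebraMap O (TAlg R0 lam ⧸ m) y = F t := by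
    intro t
    have h1 : IsIntegral ℤ_[lam] t := Algebra.IsIntegral.isIntegral t
    have h3 : IsIntegral ℤ_[lam] (F t) := by
      obtain ⟨p, hpm, hp0⟩ := h1
      refine ⟨p, hpm, ?_⟩
      have hcomp : F.comp (algebraMap ℤ_[lam] (RHat R0 lam)) =
          algebraMap ℤ_[lam] (TAlg R0 lam ⧸ m) := by
        ext x
        rw [RingHom.comp_apply, Algebra.TensorProduct.algebraMap_apply]
        exact hFalg x
      rw [← hcomp, ← Polynomial.hom_eval₂, hp0, map_zero]
    have h4 : IsIntegral O (F t) := h3.tower_top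
    exact IsIntegrallyClosed.isIntegral_iff.mp h4
  have hOinj : Function.Injective (algebraMap O (TAlg R0 lam ⧸ m)) := IsFractionRing.injective O _
  choose g hg using hint
  let G : RHat R0 lam →+* O :=
    { toFun := g
      map_one' := hOinj (by rw [hg, map_one, map_one])
      map_mul' := fun a b => hOinj (by rw [hg, map_mul, map_mul, hg, hg])
      map_zero' := hOinj (by rw [hg, map_zero, map_zero])
      map_add' := fun a b => hOinj (by rw [hg, map_add, map_add, hg, hg]) }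
  have hGF : ∀ t, algebraMap O (TAlg R0 lam ⧸ m) (G t) = F t := hg
  have hGker : RingHom.ker G = 𝔮 := by
    rw [← hFker]
    ext t
    rw [RingHom.mem_ker, RingHom.mem_ker, ← hGF t]
    exact ⟨fun h => by rw [h, map_zero], fun h => hOinj (by rw [h, map_zero])⟩
  -- `G (x ⊗ 1) = x`
  have hGalg : ∀ x : ℤ_[lam], G (x ⊗ₜ[ℤ] (1 : R0)) = algebraMap ℤ_[lam] O x := by
    intro x
    apply hOinj
    rw [hGF, hFalg, ← IsScalarTower.algebraMap_apply]
  -- lying over: `𝔪_O` contracts to `P̂`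
  have hcontr : (maximalIdeal O).comap G = RingHom.ker φ.toRingHom := by
    letI algG : Algebra (RHat R0 lam) O := G.toAlgebra
    have hcompG : G.comp (algebraMap ℤ_[lam] (RHat R0 lam)) = algebraMap ℤ_[lam] O := by
      ext x
      rw [RingHom.comp_apply, Algebra.TensorProduct.algebraMap_apply]
      exact hGalg x
    haveI : Algebra.IsIntegral ℤ_[lam] O := Algebra.IsIntegral.of_finite ℤ_[lam] O
    haveI : Algebra.IsIntegral (RHat R0 lam) O := ⟨fun y => by
      obtain ⟨p, hpm, hp0⟩ := Algebra.IsIntegral.isIntegral (R := ℤ_[lam]) y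
      refine ⟨p.map (algebraMap ℤ_[lam] (RHat R0 lam)), hpm.map _, ?_⟩
      rw [Polynomial.eval₂_map]
      change Polynomial.eval₂ (G.comp (algebraMap ℤ_[lam] (RHat R0 lam))) y p = 0
      rw [hcompG]
      exact hp0⟩
    obtain ⟨Q, hQmax, hQ⟩ := Ideal.exists_ideal_over_maximal_of_isIntegral (S := O)
      (RingHom.ker φ.toRingHom) (by
        change RingHom.ker G ≤ _
        rw [hGker]
        exact h𝔮le)
    have hQe : Q = maximalIdeal O := IsLocalRing.eq_maximalIdeal hQmax
    rw [← hQe]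
    exact hQ
  -- the map on `R0`
  let incl : R0 →+* RHat R0 lam :=
    (Algebra.TensorProduct.includeRight (R := ℤ) (A := ℤ_[lam]) (B := R0)).toRingHom
  refine ⟨G.comp incl, ?_, ?_⟩
  · -- injective
    rw [injective_iff_map_eq_zero]
    haveI : Algebra.IsIntegral ℤ R0 := Algebra.IsIntegral.of_finite ℤ R0
    let f : R0 →+* (TAlg R0 lam ⧸ m) := (algebraMap O (TAlg R0 lam ⧸ m)).comp (G.comp incl)
    have hker : RingHom.ker f = ⊥ := by
      apply Ideal.eq_bot_of_comap_eq_bot (R := ℤ)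
      rw [eq_bot_iff]
      intro n hn
      rw [Ideal.mem_comap, RingHom.mem_ker, eq_intCast, map_intCast] at hn
      rw [Ideal.mem_bot]
      exact_mod_cast hn
    intro r hr
    have : r ∈ RingHom.ker f := by
      rw [RingHom.mem_ker]
      change algebraMap O (TAlg R0 lam ⧸ m) ((G.comp incl) r) = 0
      rw [hr, map_zero]
    rwa [hker, Ideal.mem_bot] at this
  · -- the contraction is `P`
    rw [← Ideal.comap_comap, hcontr]
    ext r
    rw [Ideal.mem_comap, RingHom.mem_ker]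
    change φ ((1 : ℤ_[lam]) ⊗ₜ[ℤ] r) = 0 ↔ _
    rw [hφ_incl]
    exact Ideal.Quotient.eq_zero_iff_mem

/-- **DVR-PLACE at a prime, consumer form**: the pair `(O', iota)` which the frozen statements
S35 / S36 take as input, for the image of a character `chig` of the Hecke algebra, at the place
cut out by a maximal ideal `𝔪 ∋ p` of `ℤ̄`: an element of `chig.range` lies in `𝔪` iff `iota` sends
it into the maximal ideal of `O'`. -/
theorem exists_place_of_chig_at {M : ℕ} [NeZero M] (S : Set ℕ)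
    (chig : CuspForm.heckeAlgebra M 2 S →+* ℂ) (p : ℕ) [Fact p.Prime]
    (𝔪 : Ideal (integralClosure ℤ ℂ)) [h𝔪 : 𝔪.IsMaximal]
    (hp𝔪 : (p : integralClosure ℤ ℂ) ∈ 𝔪) :
    ∃ (O : Type) (_ : CommRing O) (_ : IsDomain O) (_ : IsDiscreteValuationRing O)
      (_ : IsAdicComplete (IsLocalRing.maximalIdeal O) O)
      (_ : Finite (IsLocalRing.ResidueField O)) (_ : CharZero O),
      (p : O) ∈ IsLocalRing.maximalIdeal O ∧
        ∃ iota : chig.range →+* O, Function.Injective iota ∧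
          ∀ (x : chig.range) (a : integralClosure ℤ ℂ), (a : ℂ) = (x : ℂ) →
            (a ∈ 𝔪 ↔ iota x ∈ IsLocalRing.maximalIdeal O) := by
  haveI : Module.Finite ℤ (CuspForm.heckeAlgebra M 2 S) := Fermat.Agent.S22.result M 2 S
  haveI : Module.Finite ℤ chig.range :=
    Module.Finite.of_surjective chig.rangeRestrict.toIntAlgHom.toLinearMap
      chig.rangeRestrict_surjective
  haveI : CharZero chig.range := ⟨fun a b h => by
    have h' := congrArg chig.range.subtype h
    simpa using h'⟩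
  -- `j : chig.range → ℤ̄`
  have hintx : ∀ x : chig.range, (x : ℂ) ∈ integralClosure ℤ ℂ := by
    rintro ⟨_, t, rfl⟩
    exact map_isIntegral_int chig (IsIntegral.of_finite ℤ t)
  let j : chig.range →+* integralClosure ℤ ℂ :=
    (chig.range.subtype).codRestrict (integralClosure ℤ ℂ) hintx
  have hj : ∀ x : chig.range, ((j x : integralClosure ℤ ℂ) : ℂ) = (x : ℂ) := fun x => rfl
  -- `P := j⁻¹ 𝔪` is maximal
  haveI hPmax : (𝔪.comap j).IsMaximal := by
    letI : Algebra chig.range (integralClosure ℤ ℂ) := j.toAlgebra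
    haveI : Algebra.IsIntegral ℤ (integralClosure ℤ ℂ) := inferInstance
    haveI : Algebra.IsIntegral chig.range (integralClosure ℤ ℂ) :=
      Algebra.IsIntegral.tower_top ℤ
    exact Ideal.isMaximal_comap_of_isIntegral_of_isMaximal (R := chig.range) 𝔪
  have hP : ((p : ℕ) : chig.range) ∈ 𝔪.comap j := by
    rw [Ideal.mem_comap, map_natCast]
    exact hp𝔪
  obtain ⟨O, iCR, iDom, iDVR, iComp, iRes, iChar, hpO, iota, hinj, hcomap⟩ :=
    exists_completeDVR_place_at chig.range p (𝔪.comap j) hP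
  refine ⟨O, iCR, iDom, iDVR, iComp, iRes, iChar, hpO, iota, hinj, fun x a hax => ?_⟩
  have haj : a = j x := Subtype.ext (by rw [hax, hj])
  rw [haj, ← Ideal.mem_comap (f := iota), hcomap, Ideal.mem_comap]

end Fermat.Agent.GE8.AuxR.PlaceAt
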