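/-
GATE-E / E8.3b AUXR, the (remove) half, TAIL lemma (helper90; split of helper96, board 7054).

**A residual representation with the good Frobenius charpolys of `W` cannot be Steinberg at a good
prime `r` unless `a_r(W)² ≡ (r + 1)² (mod p)`.**

`ρ' : ResidualGaloisRep k` (`k` a field over `𝔽_p`) with
`charpoly ρ'(Frob_ℓ) = X² - a_ℓ(W) X + ℓ` for all primes `ℓ ∉ B` (`B` finite, containing `p` and the
bad primes of `W`), and `charpoly ρ'(σ₀) = X² ∓ (r + 1) X + r` at ONE Frobenius lift `σ₀` at a good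
prime `r ≠ p` of `W`  ⟹  `a_r(W)² ≡ (r + 1)² (mod p)`.

Proof (`Choose.lean` run backwards): Chebotarev (`GP/TW/ChebExist.exists_prime_forall_frob`) for
`ρ' × ρ̄_{W,p}` at `σ₀` avoiding `B` gives a prime `ℓ ∉ B`, a Frobenius lift `τ` at `ℓ` and `g` with
`ρ'(τ) = ρ'(g σ₀ g⁻¹)`, `ρ̄(τ) = ρ̄(g σ₀ g⁻¹)`.  Traces are conjugation invariant, so
`a_ℓ(W) = tr ρ'(τ) = tr ρ'(σ₀) = ±(r + 1)` in `k` and `a_ℓ(W) = tr ρ̄(τ) = tr ρ̄(σ₀) = a_r(W)` in
`𝔽_p`; `𝔽_p → k` is injective.  (No irreducibility of `ρ'`, no adic transfer.)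
-/
import Fermat.Agent.GE8.AuxR.Choose
import Fermat.Agent.GJ.Tate.TwoDim

set_option autoImplicit false
set_option linter.unusedSectionVars false
set_option linter.unusedVariables false

open scoped WeierstrassCurve.Affine
open Fermat.Agent.Common_helper32

namespace Fermat.Agent.GE8.AuxR.RemoveTail

open WeierstrassCurve WeierstrassCurve.Affine.Point Fermat.Agent.GE.ECAssembly
open Fermat.Agent.GJ.CycChar Fermat.Agent.GB.A.A6.ECDet
open Fermat.Agent.GE8.AuxR.Choose Polynomial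

/-- `ℚ̄`. -/
local notation "Qb" => AlgebraicClosure ℚ
/-- `G_ℚ`. -/
local notation "GQ" => (AlgebraicClosure ℚ ≃ₐ[ℚ] AlgebraicClosure ℚ)

/-! ### two-dimensional linear algebra over a field -/

section TwoDim

variable {k : Type*} [Field k] {V : Type*} [AddCommGroup V] [Module k V] [Module.Finite k V]

/-- the linear coefficient of a monic quadratic -/
theorem coeff_one_quadratic (a b : k) : (X ^ 2 - C a * X + C b : k[X]).coeff 1 = -a := by
  simp [coeff_X_pow, coeff_C]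

/-- the trace is read off from the characteristic polynomial in rank two -/
theorem trace_eq_of_charpoly_eq (h : Module.finrank k V = 2) (f : Module.End k V) (a b : k)
    (hf : f.charpoly = X ^ 2 - C a * X + C b) : LinearMap.trace k V f = a := by
  have h1 := Fermat.Agent.GJ.Tate.TwoDim.charpoly_eq_of_finrank_two h f
  rw [hf] at h1
  have h2 := congrArg (fun P : k[X] => P.coeff 1) h1
  simp only [coeff_one_quadratic] at h2
  exact (neg_injective h2).symm

/-- the trace is conjugation invariant (monoid-hom form) -/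
theorem trace_conj {G : Type*} [Group G] (ρ : G →* Module.End k V) (g σ : G) :
    LinearMap.trace k V (ρ (g * σ * g⁻¹)) = LinearMap.trace k V (ρ σ) := by
  rw [map_mul, LinearMap.trace_mul_comm, ← map_mul, ← mul_assoc, inv_mul_cancel, one_mul]

end TwoDim

/-! ### the TAIL lemma -/

section Main

variable {W : WeierstrassCurve ℤ} {p : ℕ}

/-- **E8.3b (remove), TAIL.**  Statement VERBATIM board 7054. -/
theorem ap_sq_eq_of_residual (hΔ : W.Δ ≠ 0) [hp : Fact p.Prime] (hirr : W.ModRepIsIrreducible p)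
    {k : Type} [Field k] [Algebra (ZMod p) k] (ρ' : ResidualGaloisRep k) (B : Finset ℕ)
    (hB : ∀ q : ℕ, q.Prime → q ∉ B → q ≠ p ∧ W.IsGoodPrimeFor q)
    (hρ' : ∀ ℓ : ℕ, ℓ.Prime → ℓ ∉ B → ∀ A : ValuationSubring Qb, A.LiesOverPrime ℓ →
      ∀ τ : GQ, A.IsFrobeniusAt τ ℓ →
        LinearMap.charpoly (ρ'.ρ τ) =
          X ^ 2 - C (((W.apOfModel ℓ : ℤ) : k)) * X + C ((ℓ : k)))
    {r : ℕ} (hr : r.Prime) (hrp : r ≠ p) (hgood : W.IsGoodPrimeFor r)
    (A₀ : ValuationSubring Qb) (hA₀ : A₀.LiesOverPrime r) (σ₀ : GQ)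
    (hσ₀ : A₀.IsFrobeniusAt σ₀ r)
    (hr' : LinearMap.charpoly (ρ'.ρ σ₀) = X ^ 2 - C ((r : k) + 1) * X + C ((r : k)) ∨
      LinearMap.charpoly (ρ'.ρ σ₀) = X ^ 2 + C ((r : k) + 1) * X + C ((r : k))) :
    (((W.apOfModel r : ℤ) : ZMod p)) ^ 2 = ((r : ZMod p) + 1) ^ 2 := by
  classical
  have hpp : p.Prime := hp.out
  have hcard : Nat.card (Tp W p) = p ^ 2 := Fermat.Agent.GE8.Irr2.Transv.card_tors W hΔ hpp
  -- Chebotarev for `ρ' × ρ̄`
  have hR := Fermat.Agent.GP.TW.ChebExist.factorsThroughFiniteLevel_prod ρ'.ρ (rho W p)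
    ρ'.factorsThroughFiniteLevel (finiteLevel_rho hcard)
  obtain ⟨ℓ, hℓ, hℓB, hall⟩ := Fermat.Agent.GP.TW.ChebExist.exists_prime_forall_frob
    (ρ'.ρ.prod (rho W p)) hR σ₀ B
  obtain ⟨hℓp, hℓgood⟩ := hB ℓ hℓ hℓB
  obtain ⟨A, τ, hA, hτ⟩ := exists_isFrobeniusAt ℓ hℓ
  obtain ⟨g, hg⟩ := hall A τ hA hτ
  rw [MonoidHom.prod_apply, MonoidHom.prod_apply, Prod.mk.injEq] at hg
  obtain ⟨hg1, hg2⟩ := hg
  -- traces of `ρ̄`
  have hfin := finite_Tp hcard
  have hmf : Module.Finite (ZMod p) (Tp W p) := Module.Finite.of_finite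
  let b : Module.Basis (Fin 2) (ZMod p) (Tp W p) :=
    Module.finBasisOfFinrankEq (ZMod p) (Tp W p) (finrank_Tp hcard)
  have htrℓ : LinearMap.trace (ZMod p) (Tp W p) (rho W p τ) = ((W.apOfModel ℓ : ℤ) : ZMod p) := by
    rw [← trace_rhoM_frob hΔ hcard hirr b hℓ hℓp hℓgood A hA τ hτ, rhoM_apply]
    exact LinearMap.trace_eq_matrix_trace (ZMod p) b _
  have htrr : LinearMap.trace (ZMod p) (Tp W p) (rho W p σ₀) = ((W.apOfModel r : ℤ) : ZMod p) := by
    rw [← trace_rhoM_frob hΔ hcard hirr b hr hrp hgood A₀ hA₀ σ₀ hσ₀, rhoM_apply]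
    exact LinearMap.trace_eq_matrix_trace (ZMod p) b _
  have hap : ((W.apOfModel ℓ : ℤ) : ZMod p) = ((W.apOfModel r : ℤ) : ZMod p) := by
    rw [← htrℓ, ← htrr, hg2, trace_rho_conj]
  -- traces of `ρ'`
  have h1 : LinearMap.trace k ρ'.V (ρ'.ρ τ) = ((W.apOfModel ℓ : ℤ) : k) :=
    trace_eq_of_charpoly_eq ρ'.finrank_eq _ _ _ (hρ' ℓ hℓ hℓB A hA τ hτ)
  have h2 : LinearMap.trace k ρ'.V (ρ'.ρ τ) = LinearMap.trace k ρ'.V (ρ'.ρ σ₀) := by
    rw [hg1, trace_conj]
  have hcast : ∀ n : ℤ, algebraMap (ZMod p) k ((n : ZMod p)) = (n : k) := fun n => map_intCast _ n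
  have hcastN : algebraMap (ZMod p) k ((r : ZMod p)) = (r : k) := map_natCast _ r
  have hinj : Function.Injective (algebraMap (ZMod p) k) := (algebraMap (ZMod p) k).injective
  apply hinj
  rw [map_pow, map_pow, map_add, map_one, hcast, hcastN, ← hcast, ← hap, hcast, ← h1, h2]
  rcases hr' with h | h
  · rw [trace_eq_of_charpoly_eq ρ'.finrank_eq _ _ _ h]
  · have h' : LinearMap.charpoly (ρ'.ρ σ₀) = X ^ 2 - C (-((r : k) + 1)) * X + C ((r : k)) := by
      rw [h, map_neg, neg_mul, sub_neg_eq_add]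
    rw [trace_eq_of_charpoly_eq ρ'.finrank_eq _ _ _ h', neg_sq]

end Main

end Fermat.Agent.GE8.AuxR.RemoveTail
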